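import Fermat.Agent.ClassField.Idele.PlaceIdeles
import Fermat.Agent.ClassField.HerbrandRank

/-!
# The rank of the group of `T`-units, inside the ideles
-/

set_option autoImplicit false

noncomputable section

open IntermediateField IsDedekindDomain Module
open scoped NumberField nonZeroDivisors

namespace Fermat.Agent.ClassField.Idele.Herbrand

local notation "Qb" => AlgebraicClosure ℚ
local notation "Γ" => (AlgebraicClosure ℚ ≃ₐ[ℚ] AlgebraicClosure ℚ)

/-- Ideles of absolute value one outside `T`. -/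
def unitsOutside (T : Set Nat.Primes) : Subgroup IdeleGroup where
  carrier := {f | ∀ ℓ ∉ T, ∀ ι, ‖((f : Raw) ℓ ι : PadicAlgCl (ℓ : ℕ))‖ = 1}
  one_mem' := fun ℓ _ ι => by simp
  mul_mem' := fun {f g} hf hg ℓ h ι => by simp [hf ℓ h ι, hg ℓ h ι]
  inv_mem' := fun {f} hf ℓ h ι => by simp [hf ℓ h ι]

lemma smul_mem_unitsOutside {T : Set Nat.Primes} (σ : Γ) {f : IdeleGroup}
    (hf : f ∈ unitsOutside T) : σ • f ∈ unitsOutside T := fun ℓ h _ => hf ℓ h _

/-- The principal ideles of `K` that are units outside `T`. -/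
def principalUnits (T : Set Nat.Primes) (K : IntermediateField ℚ Qb) : Subgroup IdeleGroup :=
  principal.range ⊓ (idelesOf K ⊓ unitsOutside T)

/-- The places of `K` over a set of primes. -/
def placesOver (T : Set Nat.Primes) (K : IntermediateField ℚ Qb) :
    Set (HeightOneSpectrum (𝓞 K)) :=
  {w | ∃ ℓ ∈ T, ((ℓ : ℕ) : 𝓞 K) ∈ w.asIdeal}

variable {T : Set Nat.Primes} {K : IntermediateField ℚ Qb}

lemma prime_unique {w : HeightOneSpectrum (𝓞 K)} {ℓ ℓ' : Nat.Primes}
    (h : ((ℓ : ℕ) : 𝓞 K) ∈ w.asIdeal) (h' : ((ℓ' : ℕ) : 𝓞 K) ∈ w.asIdeal) : ℓ = ℓ' := by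
  by_contra hne
  obtain ⟨a, b, hab⟩ := Nat.isCoprime_iff_coprime.mpr
    ((Nat.coprime_primes ℓ.2 ℓ'.2).mpr fun h => hne (Subtype.ext h))
  apply w.isPrime.ne_top
  rw [Ideal.eq_top_iff_one]
  have := congrArg (fun z : ℤ => (z : 𝓞 K)) hab
  simp only [Int.cast_add, Int.cast_mul, Int.cast_natCast, Int.cast_one] at this
  rw [← this]
  exact w.asIdeal.add_mem (w.asIdeal.mul_mem_left _ h) (w.asIdeal.mul_mem_left _ h')

lemma placeAt_mem_placesOver_iff [FiniteDimensional ℚ K] {ℓ : Nat.Primes} (ι : Emb ℓ) :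
    placeAt ι K ∈ placesOver T K ↔ ℓ ∈ T := by
  refine ⟨fun ⟨ℓ', h, h'⟩ => ?_, fun h => ⟨ℓ, h, natCast_mem_primeIdeal ι K⟩⟩
  rwa [prime_unique (natCast_mem_primeIdeal ι K) h']

/-- Every place lies over a rational prime. -/
lemma exists_prime_mem [FiniteDimensional ℚ K] (w : HeightOneSpectrum (𝓞 K)) :
    ∃ ℓ : Nat.Primes, ((ℓ : ℕ) : 𝓞 K) ∈ w.asIdeal := by
  have hN : Ideal.absNorm w.asIdeal ≠ 0 := fun h => w.ne_bot (Ideal.absNorm_eq_zero_iff.1 h)
  have hmem : ((Ideal.absNorm w.asIdeal : ℕ) : 𝓞 K) ∈ w.asIdeal := Ideal.absNorm_mem _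
  generalize Ideal.absNorm w.asIdeal = n at hN hmem
  induction n using Nat.recOnMul with
  | zero => exact absurd rfl hN
  | one => exact absurd (by simpa using hmem) ((Ideal.ne_top_iff_one _).1 w.isPrime.ne_top)
  | prime q hq => exact ⟨⟨q, hq⟩, hmem⟩
  | mul a b iha ihb =>
    rw [Nat.cast_mul] at hmem
    rcases w.isPrime.mem_or_mem hmem with h | h
    · exact iha (left_ne_zero_of_mul hN) h
    · exact ihb (right_ne_zero_of_mul hN) h

lemma finite_placesOver [FiniteDimensional ℚ K] (hT : T.Finite) : (placesOver T K).Finite :=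
  (hT.biUnion fun ℓ _ => finite_places_over K ℓ).subset fun w hw =>
    Set.mem_iUnion₂.2 ⟨hw.choose, hw.choose_spec.1, hw.choose_spec.2⟩

variable (T K) in
/-- The group of `T`-units of `K`. -/
def tUnits : Subgroup Kˣ where
  carrier := {x | ∀ ℓ ∉ T, ∀ ι : Emb ℓ, ‖ι ((x : K) : Qb)‖ = 1}
  one_mem' := fun ℓ _ ι => by simp
  mul_mem' := fun {x y} hx hy ℓ h ι => by simp [hx ℓ h ι, hy ℓ h ι]
  inv_mem' := fun {x} hx ℓ h ι => by simp [hx ℓ h ι]

variable (K) in
/-- The inclusion of `Kˣ`. -/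
def inclUnits : Kˣ →* Qbˣ := Units.map (K.val : K →* Qb)

lemma principalUnits_eq : principalUnits T K = (tUnits T K).map (principal.comp (inclUnits K)) := by
  ext f
  constructor
  · rintro ⟨⟨x, rfl⟩, hK, hT⟩
    have hxK : (x : Qb) ∈ K := mem_of_forall_fixingSubgroup K fun σ hσ => by
      have := hK σ hσ
      rw [smul_principal] at this
      exact congrArg Units.val (principal_injective this)
    refine ⟨Units.mk0 ⟨x, hxK⟩ fun h => x.ne_zero (congrArg Subtype.val h), ?_, ?_⟩
    · intro ℓ hℓ ι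
      exact hT ℓ hℓ ι
    · exact congrArg principal (Units.ext rfl)
  · rintro ⟨x, hx, rfl⟩
    refine ⟨⟨_, rfl⟩, fun σ hσ => ?_, fun ℓ hℓ ι => hx ℓ hℓ ι⟩
    change σ • principal (inclUnits K x) = principal (inclUnits K x)
    rw [smul_principal]
    exact congrArg principal (Units.ext
      ((IntermediateField.mem_fixingSubgroup_iff _ _).1 hσ _ (x : K).2))

lemma inclUnits_comp_injective : Function.Injective (principal.comp (inclUnits K)) := fun x y h =>
  Units.ext (Subtype.ext (congrArg Units.val (principal_injective h)))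

variable [FiniteDimensional ℚ K]

/-- The orders at the places over `T`. -/
def ordHom : Additive Kˣ →+ (placesOver T K → ℤ) where
  toFun x w := ordK (w : HeightOneSpectrum (𝓞 K)) ((Additive.toMul x : Kˣ) : K)
  map_zero' := funext fun w => ordK_one _
  map_add' x y := funext fun w => ordK_mul _ (Units.ne_zero _) (Units.ne_zero _)

variable (T K) in
/-- The orders of the `T`-units at the places over `T`. -/
def tUnitsOrd : Additive (tUnits T K) →ₗ[ℤ] (placesOver T K → ℤ) :=
  (ordHom.comp (MonoidHom.toAdditive (tUnits T K).subtype)).toIntLinearMap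

variable (T K) in
/-- The units as `T`-units. -/
def unitsToTUnits : (𝓞 K)ˣ →* tUnits T K :=
  MonoidHom.codRestrict (Units.map (algebraMap (𝓞 K) K : 𝓞 K →* K)) _ fun u ℓ _ ι => by
    refine le_antisymm (norm_embInt_le_one ι K (u : 𝓞 K)) ?_
    have h : ‖embInt ι K (u : 𝓞 K)‖ * ‖embInt ι K ((u⁻¹ : (𝓞 K)ˣ) : 𝓞 K)‖ = 1 := by
      rw [← norm_mul, ← map_mul, Units.mul_inv, map_one, norm_one]
    change 1 ≤ ‖embInt ι K (u : 𝓞 K)‖
    rw [← h]
    exact mul_le_of_le_one_right (norm_nonneg _) (norm_embInt_le_one ι K _)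

lemma ordK_eq_zero_of_norm {ℓ : Nat.Primes} (ι : Emb ℓ) {x : K} (hx : x ≠ 0)
    (h : ‖ι (x : Qb)‖ = 1) : ordK (placeAt ι K) x = 0 := by
  rw [norm_emb_eq_zpow ι hx] at h
  exact zpow_right_injective₀ (norm_unifK_pos ι) (norm_unifK_lt_one ι).ne
    (h.trans (zpow_zero _).symm)

lemma valuation_eq_one_of_ordK {w : HeightOneSpectrum (𝓞 K)} {x : K} (hx : x ≠ 0)
    (h : ordK w x = 0) : w.valuation K x = 1 := by
  rw [ordK, neg_eq_zero] at h
  have h0 : w.valuation K x ≠ 0 := (Valuation.ne_zero_iff _).2 hx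
  rw [← WithZero.exp_log h0, h, WithZero.exp_zero]

lemma ker_tUnitsOrd : LinearMap.ker (tUnitsOrd T K) =
    LinearMap.range (MonoidHom.toAdditive (unitsToTUnits T K)).toIntLinearMap := by
  ext x
  constructor
  · intro hx
    set y : Kˣ := ((Additive.toMul x : tUnits T K) : Kˣ)
    have hval : ∀ w : HeightOneSpectrum (𝓞 K), w.valuation K (y : K) = 1 := by
      intro w
      refine valuation_eq_one_of_ordK y.ne_zero ?_
      by_cases hw : w ∈ placesOver T K
      · exact congrFun hx ⟨w, hw⟩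
      · obtain ⟨ℓ, hℓ⟩ := exists_prime_mem w
        obtain ⟨ι, rfl⟩ := exists_placeAt_eq K w hℓ
        exact ordK_eq_zero_of_norm ι y.ne_zero
          ((Additive.toMul x).2 ℓ (fun h => hw ⟨ℓ, h, hℓ⟩) ι)
    obtain ⟨a, ha⟩ := HeightOneSpectrum.mem_integers_of_valuation_le_one K (y : K)
      fun w => (hval w).le
    obtain ⟨b, hb⟩ := HeightOneSpectrum.mem_integers_of_valuation_le_one K ((y⁻¹ : Kˣ) : K)
      fun w => by rw [Units.val_inv_eq_inv_val, map_inv₀, hval w, inv_one]
    have hab : a * b = 1 := IsFractionRing.injective (𝓞 K) K (by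
      rw [map_mul, ha, hb, Units.mul_inv, map_one])
    exact ⟨Additive.ofMul ⟨a, b, hab, by rwa [mul_comm]⟩,
      Additive.toMul.injective (Subtype.ext (Units.ext ha))⟩
  · rintro ⟨u, rfl⟩
    refine funext fun w => ?_
    obtain ⟨ℓ, hℓ⟩ := exists_prime_mem (w : HeightOneSpectrum (𝓞 K))
    obtain ⟨ι, hι⟩ := exists_placeAt_eq K _ hℓ
    change ordK (w : HeightOneSpectrum (𝓞 K)) _ = 0
    rw [← hι]
    exact ordK_eq_zero_of_norm ι (Units.ne_zero _)
      ((unitsToTUnits ∅ K (Additive.toMul u)).2 ℓ (Set.notMem_empty _) ι)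

lemma smul_mem_range_tUnitsOrd [Fintype (placesOver T K)] (v : placesOver T K → ℤ) :
    ((Nat.card (ClassGroup (𝓞 K)) : ℕ) : ℤ) • v ∈ LinearMap.range (tUnitsOrd T K) := by
  classical
  set h := Nat.card (ClassGroup (𝓞 K))
  rw [pi_eq_sum_univ v, Finset.smul_sum]
  refine Submodule.sum_mem _ fun w _ => ?_
  rw [smul_comm]
  refine Submodule.smul_mem _ _ ?_
  obtain ⟨x, hx⟩ : ∃ x : 𝓞 K, (w : HeightOneSpectrum (𝓞 K)).asIdeal ^ h = Ideal.span {x} := by
    have hmem := pow_mem (mem_nonZeroDivisors_of_ne_zero (w : HeightOneSpectrum (𝓞 K)).ne_bot) h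
    have h1 : ClassGroup.mk0 ⟨_, hmem⟩ = 1 := by
      rw [show (⟨_, hmem⟩ : (Ideal (𝓞 K))⁰) = ⟨_, mem_nonZeroDivisors_of_ne_zero
        (w : HeightOneSpectrum (𝓞 K)).ne_bot⟩ ^ h from rfl, map_pow, pow_card_eq_one']
    exact ((ClassGroup.mk0_eq_one_iff hmem).1 h1).principal
  have hx0 : x ≠ 0 := by
    rintro rfl
    rw [Ideal.span_singleton_eq_bot.2 rfl] at hx
    exact pow_ne_zero h (w : HeightOneSpectrum (𝓞 K)).ne_bot hx
  have hxK : (x : K) ≠ 0 := NumberField.RingOfIntegers.coe_ne_zero_iff.2 hx0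
  have hord : ∀ u : HeightOneSpectrum (𝓞 K), ordK u (x : K) = if u = w then (h : ℤ) else 0 := by
    intro u
    rw [ordK, show ((x : K)) = algebraMap (𝓞 K) K x from rfl,
      HeightOneSpectrum.valuation_of_algebraMap, u.intValuation_if_neg hx0, WithZero.log_exp,
      neg_neg, ← hx, Associates.mk_pow, Associates.count_pow (Associates.mk_ne_zero.2
        (w : HeightOneSpectrum (𝓞 K)).ne_bot) u.associates_irreducible]
    rw [Nat.cast_mul]
    split_ifs with hu
    · rw [hu, Associates.count_self (HeightOneSpectrum.associates_irreducible _), Nat.cast_one,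
        mul_one]
    · rw [Associates.count_eq_zero_of_ne u.associates_irreducible
        (HeightOneSpectrum.associates_irreducible _)
        (fun e => hu (HeightOneSpectrum.ext
          (associated_iff_eq.1 (Associates.mk_eq_mk_iff_associated.1 e)))), Nat.cast_zero, mul_zero]
  have hmemT : Units.mk0 (x : K) hxK ∈ tUnits T K := by
    intro ℓ hℓ ι
    rw [Units.val_mk0, norm_emb_eq_zpow ι hxK, hord, if_neg, zpow_zero]
    intro e
    exact hℓ ((placeAt_mem_placesOver_iff ι).1 (e ▸ w.2))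
  refine ⟨Additive.ofMul ⟨_, hmemT⟩, funext fun u => ?_⟩
  change ordK (u : HeightOneSpectrum (𝓞 K)) (x : K) = _
  rw [hord]
  simp only [Pi.smul_apply, smul_eq_mul, Subtype.coe_inj, @eq_comm _ w u]
  split_ifs <;> simp [h]

lemma finite_tUnits (hT : T.Finite) : Module.Finite ℤ (Additive (tUnits T K)) := by
  have := (finite_placesOver (K := K) hT).to_subtype
  have h1 : (LinearMap.range (tUnitsOrd T K)).FG := IsNoetherian.noetherian _
  have h2 : (LinearMap.ker (tUnitsOrd T K)).FG := by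
    rw [ker_tUnitsOrd, LinearMap.range_eq_map]
    exact Submodule.FG.map _ Module.Finite.fg_top
  exact ⟨Submodule.fg_of_fg_map_of_fg_inf_ker (tUnitsOrd T K)
    (by rwa [Submodule.map_top]) (by rwa [top_inf_eq])⟩

/-- The rank of the `T`-units. -/
theorem finrank_tUnits (hT : T.Finite) :
    finrank ℤ (Additive (tUnits T K)) = NumberField.Units.rank K + (placesOver T K).ncard := by
  classical
  have := (finite_placesOver (K := K) hT).fintype
  have := finite_tUnits (K := K) hT
  rw [← Submodule.finrank_quotient_add_finrank (LinearMap.ker (tUnitsOrd T K)),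
    (tUnitsOrd T K).quotKerEquivRange.finrank_eq, add_comm]
  congr 1
  · rw [ker_tUnitsOrd, LinearMap.finrank_range_of_inj, NumberField.Units.finrank_eq]
    intro u v huv
    exact Additive.toMul.injective (Units.ext (IsFractionRing.injective (𝓞 K) K
      (congrArg (fun z : Additive (tUnits T K) =>
        (((Additive.toMul z : tUnits T K) : Kˣ) : K)) huv)))
  · rw [HerbrandRank.finrank_eq_of_smul_mem _ (Int.natCast_ne_zero.2 Nat.card_pos.ne')
      fun v => smul_mem_range_tUnitsOrd v, Module.finrank_fintype_fun_eq_card,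
      ← Nat.card_coe_set_eq, Nat.card_eq_fintype_card]

end Fermat.Agent.ClassField.Idele.Herbrand
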