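import Fermat.Agent.ClassField.Idele.Herbrand.Parts
import Fermat.Agent.ClassField.HerbrandRank

/-!
# The Herbrand quotient of the ideles modulo principal ideles and units away from `S`
-/

set_option autoImplicit false

noncomputable section

open IntermediateField Module
open scoped NumberField

namespace Fermat.Agent.ClassField.Idele.Herbrand

local notation "Qb" => AlgebraicClosure ℚ
local notation "Γ" => (AlgebraicClosure ℚ ≃ₐ[ℚ] AlgebraicClosure ℚ)

lemma isTotallyComplex_of_mem {p : ℕ} (hp : p.Prime) (hp2 : p ≠ 2) {ζ : Qb}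
    (hζ : IsPrimitiveRoot ζ p) (K : IntermediateField ℚ Qb) (hζK : ζ ∈ K) :
    NumberField.IsTotallyComplex K := by
  have hζ' : IsPrimitiveRoot (⟨ζ, hζK⟩ : K) p :=
    IsPrimitiveRoot.of_map_of_injective (f := K.val) hζ K.val.injective
  refine ⟨fun w => ?_⟩
  by_contra hw
  rw [NumberField.InfinitePlace.not_isComplex_iff_isReal] at hw
  set e := NumberField.InfinitePlace.embedding_of_isReal hw
  have h1 : e ⟨ζ, hζK⟩ ^ p = 1 := by rw [← map_pow, hζ'.pow_eq_one, map_one]
  have h2 : e ⟨ζ, hζK⟩ = 1 :=
    (hp.odd_of_ne_two hp2).pow_injective (by simp only; rw [h1, one_pow])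
  exact hζ'.ne_one hp.one_lt ((map_eq_one_iff _ e.injective).mp h2)

variable {p : ℕ} [hp : Fact p.Prime] {k L : IntermediateField ℚ Qb} {σ : Γ} (h : Gen p k L σ)
include h

omit hp in
lemma Gen.finiteDimensional_base : FiniteDimensional ℚ k :=
  haveI := h.finiteDimensional
  Module.Finite.of_injective (IntermediateField.inclusion h.cyclic.le).toLinearMap
    (IntermediateField.inclusion_injective h.cyclic.le)

omit hp in
lemma Gen.finrank_eq :
    finrank ℚ L = p * finrank ℚ k := by
  have := h.finiteDimensional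
  have := h.finiteDimensional_base
  have hk := IntermediateField.finrank_eq_fixingSubgroup_index (F := ℚ) (E' := Qb) k
  have hL := IntermediateField.finrank_eq_fixingSubgroup_index (F := ℚ) (E' := Qb) L
  rw [hk, hL, ← h.cyclic.index_eq]
  exact (Subgroup.relIndex_mul_index h.fix_le).symm

/-- The rank of the units in a cyclic extension of degree `p` above the `p`-th roots of unity. -/
lemma rank_add_one [FiniteDimensional ℚ L] [FiniteDimensional ℚ k] (hp2 : p ≠ 2) {ζ : Qb} (hζ : IsPrimitiveRoot ζ p) (hζk : ζ ∈ k) :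
    NumberField.Units.rank L + 1 = p * (NumberField.Units.rank k + 1) := by
  haveI := isTotallyComplex_of_mem hp.out hp2 hζ k hζk
  haveI := isTotallyComplex_of_mem hp.out hp2 hζ L (h.cyclic.le hζk)
  have hk := NumberField.IsTotallyComplex.finrank k
  have hL := NumberField.IsTotallyComplex.finrank L
  rw [h.finrank_eq, hk, mul_left_comm] at hL
  have hcard : ∀ (K : IntermediateField ℚ Qb) [NumberField K] [NumberField.IsTotallyComplex K],
      NumberField.Units.rank K + 1 = NumberField.InfinitePlace.nrComplexPlaces K := by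
    intro K _ _
    have : 0 < Fintype.card (NumberField.InfinitePlace K) := Fintype.card_pos
    rw [NumberField.Units.rank, Nat.sub_add_cancel this,
      NumberField.InfinitePlace.card_eq_nrRealPlaces_add_nrComplexPlaces,
      NumberField.IsTotallyComplex.nrRealPlaces_eq_zero, zero_add]
  rw [hcard L, hcard k]
  omega

/-- The additive automorphism of the `T`-units. -/
lemma principalUnits_herbrand (hp2 : p ≠ 2) {ζ : Qb} (hζ : IsPrimitiveRoot ζ p) (hζk : ζ ∈ k)
    {T : Set Nat.Primes} (hT : T.Finite) {t : ℕ}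
    (ht : (placesOver T L).ncard + (p - 1) * t = p * (placesOver T k).ncard) :
    idx (delta IdeleGroup σ) (normPow IdeleGroup σ p) (principalUnits T L) ≠ 0 ∧
      idx (normPow IdeleGroup σ p) (delta IdeleGroup σ) (principalUnits T L) * p ^ t =
        idx (delta IdeleGroup σ) (normPow IdeleGroup σ p) (principalUnits T L) * p := by
  have := h.finiteDimensional
  have := h.finiteDimensional_base
  set E := principalUnits T L with hE
  have hst := stable_principalUnits h T
  -- the automorphism
  let s : E →* E :=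
    ((MulDistribMulAction.toMonoidHom IdeleGroup σ).comp E.subtype).codRestrict E fun a => by
      obtain ⟨⟨x, hx⟩, h1, h2⟩ := a.2
      refine ⟨⟨σ • x, ?_⟩, h.smul_mem h1, smul_mem_unitsOutside σ h2⟩
      rw [← smul_principal, hx]
      rfl
  let τ : Module.End ℤ (Additive E) := (MonoidHom.toAdditive s).toIntLinearMap
  let val : Additive E → IdeleGroup := fun x => ((Additive.toMul x : E) : IdeleGroup)
  have hval : Function.Injective val := fun x y e => Additive.toMul.injective (Subtype.ext e)
  have hτ : ∀ (i : ℕ) x, val ((τ ^ i) x) = σ ^ i • val x := fun i => by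
    induction i with
    | zero => intro x; rw [pow_zero, pow_zero, one_smul]; rfl
    | succ i ih => intro x; rw [pow_succ, Module.End.mul_apply, ih, pow_succ, mul_smul]; rfl
  have hpow : τ ^ p = 1 := LinearMap.ext fun x => hval (by
    rw [hτ, Module.End.one_apply, h.pow_smul (Subgroup.mem_inf.1 (Subgroup.mem_inf.1
      (Additive.toMul x).2).2).1])
  -- the equivalence with the `T`-units
  let φ : Additive (tUnits T L) ≃ₗ[ℤ] Additive E :=
    (MulEquiv.toAdditive (((tUnits T L).equivMapOfInjective _ inclUnits_comp_injective).trans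
      (MulEquiv.subgroupCongr principalUnits_eq.symm))).toIntLinearEquiv
  haveI : Module.Finite ℤ (Additive (tUnits T L)) := finite_tUnits hT
  haveI : Module.Finite ℤ (Additive E) := Module.Finite.equiv φ
  -- transfer of the indices
  have hN : ∀ x, val ((∑ i ∈ Finset.range p, τ ^ i) x) = normPow IdeleGroup σ p (val x) := by
    intro x
    rw [LinearMap.sum_apply, normPow_apply]
    simp only [val, toMul_sum, Subgroup.val_finset_prod]
    exact Finset.prod_congr rfl fun i _ => hτ i x
  have hD : ∀ x, val ((τ - 1) x) = delta IdeleGroup σ (val x) := by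
    intro x
    rw [LinearMap.sub_apply, Module.End.one_apply, delta_apply]
    simp only [val, toMul_sub, Subgroup.coe_div]
    rfl
  have key : ∀ (F G : Module.End ℤ (Additive E)) (f g : IdeleGroup →* IdeleGroup),
      (∀ x, val (F x) = f (val x)) → (∀ x, val (G x) = g (val x)) →
      G.range.toAddSubgroup.relIndex F.ker.toAddSubgroup = idx f g E := by
    intro F G f g hF hG
    let A : Subgroup E := AddSubgroup.toSubgroup' F.ker.toAddSubgroup
    let B : Subgroup E := AddSubgroup.toSubgroup' G.range.toAddSubgroup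
    have hA : A.map E.subtype = E ⊓ f.ker := by
      ext a
      constructor
      · rintro ⟨x, hx, rfl⟩
        refine ⟨x.2, ?_⟩
        have hx' : F (Additive.ofMul x) = 0 := hx
        have := hF (Additive.ofMul x)
        rw [hx'] at this
        exact this.symm
      · rintro ⟨ha, hfa⟩
        exact ⟨⟨a, ha⟩, hval ((hF (Additive.ofMul ⟨a, ha⟩)).trans hfa), rfl⟩
    have hB : B.map E.subtype = E.map g := by
      ext a
      constructor
      · rintro ⟨x, ⟨y, hy⟩, rfl⟩
        exact ⟨val y, (Additive.toMul y).2, (hG y).symm.trans (congrArg val hy)⟩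
      · rintro ⟨b, hb, rfl⟩
        exact ⟨Additive.toMul (G (Additive.ofMul ⟨b, hb⟩)), ⟨Additive.ofMul ⟨b, hb⟩, rfl⟩,
          hG (Additive.ofMul ⟨b, hb⟩)⟩
    rw [idx, ← hA, ← hB, Subgroup.relIndex_map_map_of_injective B A E.subtype_injective,
      ← Subgroup.relIndex_toAddSubgroup]
    rfl
  obtain ⟨h0, h1⟩ := HerbrandRank.herbrand_rank p τ hpow
  rw [key (τ - 1) _ _ _ hD hN] at h0 h1
  rw [key _ (τ - 1) _ _ hN hD] at h1
  -- ranks
  have hr : finrank ℤ (Additive E) = NumberField.Units.rank L + (placesOver T L).ncard := by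
    rw [← φ.finrank_eq, finrank_tUnits hT]
  have hr0 : finrank ℤ (τ - 1).ker = NumberField.Units.rank k + (placesOver T k).ncard := by
    rw [← finrank_tUnits (K := k) hT]
    have hle : principalUnits T k ≤ E := fun a ha =>
      ⟨ha.1, fun u hu => ha.2.1 u (h.fix_le hu), ha.2.2⟩
    let ψ : Additive (tUnits T k) →ₗ[ℤ] Additive E :=
      (MonoidHom.toAdditive ((Subgroup.inclusion hle).comp
        (((tUnits T k).equivMapOfInjective _ inclUnits_comp_injective).trans
          (MulEquiv.subgroupCongr principalUnits_eq.symm)).toMonoidHom)).toIntLinearMap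
    have hinj : Function.Injective ψ := fun x y e => Additive.toMul.injective
      ((((tUnits T k).equivMapOfInjective _ inclUnits_comp_injective).trans
        (MulEquiv.subgroupCongr principalUnits_eq.symm)).injective
          (Subgroup.inclusion_injective hle (congrArg Additive.toMul e)))
    suffices hker : (τ - 1).ker = ψ.range by rw [hker, LinearMap.finrank_range_of_inj hinj]
    ext x
    constructor
    · intro hx
      have hfix : σ • val x = val x := by
        have := hD x
        rw [show (τ - 1) x = 0 from hx] at this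
        exact mem_ker_delta.1 this.symm
      have hmem : val x ∈ principalUnits T k := by
        obtain ⟨h1, h2, h3⟩ := (Additive.toMul x).2
        exact ⟨h1, h.mem_invariants h2 hfix, h3⟩
      refine ⟨Additive.ofMul ((((tUnits T k).equivMapOfInjective _ inclUnits_comp_injective).trans
        (MulEquiv.subgroupCongr principalUnits_eq.symm)).symm ⟨_, hmem⟩), ?_⟩
      refine hval ?_
      show ((((((tUnits T k).equivMapOfInjective _ inclUnits_comp_injective).trans
        (MulEquiv.subgroupCongr principalUnits_eq.symm))) (((((tUnits T k).equivMapOfInjective _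
          inclUnits_comp_injective).trans (MulEquiv.subgroupCongr principalUnits_eq.symm))).symm
            ⟨_, hmem⟩) : principalUnits T k) : IdeleGroup) = val x
      rw [MulEquiv.apply_symm_apply]
    · rintro ⟨y, rfl⟩
      refine hval ((hD _).trans ?_)
      refine mem_ker_delta.2 ?_
      exact (((((tUnits T k).equivMapOfInjective _ inclUnits_comp_injective).trans
        (MulEquiv.subgroupCongr principalUnits_eq.symm)) (Additive.toMul y)).2.2.1) σ h.mem
  rw [hr, hr0] at h1
  refine ⟨h0, ?_⟩
  have hu := rank_add_one h hp2 hζ hζk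
  have hp1 := hp.out.two_le
  have e : p * (NumberField.Units.rank k + (placesOver T k).ncard) + (p - 1) =
      NumberField.Units.rank L + (placesOver T L).ncard + (p - 1) * t := by
    rw [mul_add, mul_one] at hu
    rw [mul_add]
    omega
  refine Nat.pow_left_injective (show p - 1 ≠ 0 by omega) ?_
  simp only [mul_pow, ← pow_mul]
  apply Nat.eq_of_mul_eq_mul_left
    (pow_pos hp.out.pos (NumberField.Units.rank L + (placesOver T L).ncard))
  calc _ = idx (normPow IdeleGroup σ p) (delta IdeleGroup σ) E ^ (p - 1) *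
        p ^ (NumberField.Units.rank L + (placesOver T L).ncard + (p - 1) * t) := by
        rw [pow_add, mul_comm t]; ring
    _ = idx (normPow IdeleGroup σ p) (delta IdeleGroup σ) E ^ (p - 1) *
        p ^ (p * (NumberField.Units.rank k + (placesOver T k).ncard)) * p ^ (p - 1) := by
        rw [← e, pow_add, mul_assoc]
    _ = _ := by rw [h1]; ring

omit h in
/-- Every idele is principal up to `T`-ideles when `T` carries generators of the class group. -/
lemma exists_generating_primes (L : IntermediateField ℚ Qb) [FiniteDimensional ℚ L]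
    (A : Finset Nat.Primes) :
    ∃ T : Set Nat.Primes, T.Finite ∧ ↑A ⊆ T ∧
      idelesOf L ≤ tIdeles T L ⊔ (principal.range ⊓ idelesOf L) := by
  classical
  obtain ⟨W, hWfin, hW⟩ := exists_finite_generating (K := L)
  choose q hq using fun w : IsDedekindDomain.HeightOneSpectrum (𝓞 L) => exists_prime_mem w
  refine ⟨↑A ∪ q '' W, A.finite_toSet.union (hWfin.image q), Set.subset_union_left, fun f hf => ?_⟩
  obtain ⟨x, hx0, hx⟩ := exists_principal_norm_eq_one hW hf
  set y : Qbˣ := Units.mk0 (x : Qb) fun e => hx0 (Subtype.ext e)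
  have hyL : principal y ∈ idelesOf L := fun u hu => by
    rw [smul_principal]
    exact congrArg principal (Units.ext ((IntermediateField.mem_fixingSubgroup_iff _ _).1 hu _ x.2))
  refine Subgroup.mem_sup.2 ⟨principal y * f, ⟨mul_mem hyL hf, fun ℓ hℓ ι => ?_⟩,
    (principal y)⁻¹, ⟨principal.range.inv_mem ⟨y, rfl⟩, (idelesOf L).inv_mem hyL⟩, by
      rw [mul_comm (principal y), mul_inv_cancel_right]⟩
  rw [Subgroup.coe_mul, Raw.mul_apply, Units.val_mul, principal_apply]
  refine hx ℓ ι fun hmem => hℓ (Or.inr ⟨_, hmem, ?_⟩)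
  exact prime_unique (hq _) (natCast_mem_primeIdeal ι L)

omit h in
lemma principal_inf_unitsAway {S : Set Nat.Primes} (hS : S.Nonempty) :
    principal.range ⊓ unitsAway S = ⊥ := by
  refine le_bot_iff.1 ?_
  rintro _ ⟨⟨x, rfl⟩, hx⟩
  obtain ⟨ℓ, hℓ⟩ := hS
  obtain ⟨ι⟩ := nonempty_emb ℓ
  have h1 : ι (x : Qb) = 1 := congrArg Units.val (hx.1 ℓ hℓ ι)
  rw [Subgroup.mem_bot, show x = 1 from Units.ext (ι.toRingHom.injective (h1.trans (map_one ι).symm)),
    map_one]

omit h in
/-- The kernel of the class map on the ideles of `L`. -/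
lemma idelesOf_inf_trivialClasses {S : Set Nat.Primes} (hS : S.Nonempty)
    (L : IntermediateField ℚ Qb) :
    idelesOf L ⊓ trivialClasses S = (principal.range ⊓ idelesOf L) ⊔ unitsPart S L := by
  refine le_antisymm ?_ (sup_le (le_inf inf_le_right (inf_le_left.trans le_sup_left))
    (le_inf inf_le_left (inf_le_right.trans le_sup_right)))
  rintro f ⟨hf, hf'⟩
  obtain ⟨_, ⟨x, rfl⟩, z, hz, rfl⟩ := Subgroup.mem_sup.1 hf'
  have hx : principal x ∈ idelesOf L := fun u hu => by
    have h1 : u • principal x * u • z = principal x * z := by rw [← smul_mul']; exact hf u hu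
    have hmem : u • principal x / principal x ∈ principal.range ⊓ unitsAway S := by
      refine ⟨?_, ?_⟩
      · rw [smul_principal, ← map_div]; exact ⟨_, rfl⟩
      · have : u • principal x / principal x = z / (u • z) := by
          rw [div_eq_div_iff_mul_eq_mul, h1, mul_comm]
        rw [this]
        exact (unitsAway S).div_mem hz (smul_mem_unitsAway u hz)
    rwa [principal_inf_unitsAway hS, Subgroup.mem_bot, div_eq_one] at hmem
  have hzL : z ∈ idelesOf L := by
    have := (idelesOf L).mul_mem ((idelesOf L).inv_mem hx) hf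
    rwa [inv_mul_cancel_left] at this
  exact mul_mem (Subgroup.mem_sup_left ⟨⟨x, rfl⟩, hx⟩) (Subgroup.mem_sup_right ⟨hzL, hz⟩)

omit h hp in
/-- The quotient index only depends on a supplement of the subgroup. -/
lemma qidx_sup {M : Type*} [CommGroup M] {f g : M →* M} {A B : Subgroup M} (hA : Stable f g A)
    (hB : Stable f g B) : qidx f g (A ⊔ B) B = qidx f g A (B ⊓ A) := by
  have h1 : (A ⊔ B).map g ⊔ B = A.map g ⊔ B := by
    rw [Subgroup.map_sup, sup_assoc, sup_eq_right.2 hB.map_right]
  have hBX : B ≤ B.comap f := fun b hb => hB.map_left ⟨b, hb, rfl⟩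
  have h2 : (A ⊔ B) ⊓ B.comap f = (A ⊓ B.comap f) ⊔ B := by
    rw [sup_comm A B, sup_inf_eq hBX, sup_comm]
  have h3 : A ⊓ (B ⊓ A).comap f = A ⊓ B.comap f :=
    le_antisymm (inf_le_inf_left _ (Subgroup.comap_mono inf_le_left))
      fun a ha => ⟨ha.1, ha.2, hA.map_left ⟨a, ha.1, rfl⟩⟩
  have h4 : A.map g ≤ A ⊓ B.comap f := fun x hx => ⟨hA.map_right hx, by
    obtain ⟨a, ha, rfl⟩ := hx
    show f (g a) ∈ B
    rw [hA.comp_left a ha]; exact one_mem B⟩
  rw [qidx, qidx, h1, h2, h3]
  have h5 : A ⊓ B.comap f ⊔ B = A ⊓ B.comap f ⊔ (A.map g ⊔ B) := by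
    rw [← sup_assoc, sup_eq_left.2 h4]
  have h6 : A.map g ⊔ B ⊓ A = A.map g ⊔ B ⊓ (A ⊓ B.comap f) :=
    congrArg (A.map g ⊔ ·) (le_antisymm (fun b hb => ⟨hb.1, hb.2, hBX hb.1⟩)
      fun b hb => ⟨hb.1, hb.2.1⟩)
  rw [h5, Subgroup.relIndex_sup_right, h6, ← sup_inf_eq h4, Subgroup.inf_relIndex_right]

omit h hp in
lemma qidx_ne_zero {M : Type*} [CommGroup M] {f g : M →* M} {A B : Subgroup M} (hA : Stable f g A)
    (hB : Stable f g B) (hBA : B ≤ A) (h1 : idx f g A ≠ 0) (h2 : idx g f B ≠ 0) :
    qidx f g A B ≠ 0 := by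
  rw [half_big (B := B) hA] at h1
  rw [half_small hA.symm hB.symm hBA] at h2
  rw [half_quot hA hB hBA]
  exact mul_ne_zero (right_ne_zero_of_mul h2) (left_ne_zero_of_mul h1)

variable {S : Set Nat.Primes}

/-- The Herbrand quotient of `J / (Lˣ U)` is `p`, and the numerator is finite. -/
theorem qidx_classes (hp2 : p ≠ 2) {ζ : Qb} (hζ : IsPrimitiveRoot ζ p) (hζk : ζ ∈ k)
    (hS : ∀ ℓ, ℓ ∉ S → IsUnramifiedAt k L ℓ) (hSne : S.Nonempty) :
    qidx (delta IdeleGroup σ) (normPow IdeleGroup σ p) (idelesOf L)
        (idelesOf L ⊓ trivialClasses S) ≠ 0 ∧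
    qidx (delta IdeleGroup σ) (normPow IdeleGroup σ p) (idelesOf L)
        (idelesOf L ⊓ trivialClasses S) =
      p * qidx (normPow IdeleGroup σ p) (delta IdeleGroup σ) (idelesOf L)
        (idelesOf L ⊓ trivialClasses S) := by
  have := h.finiteDimensional
  obtain ⟨A, hA⟩ := exists_finset_isUnramifiedAt k L
  obtain ⟨T, hT, hAT, hJ⟩ := exists_generating_primes L A
  set f := delta IdeleGroup σ
  set g := normPow IdeleGroup σ p
  set P := principal.range ⊓ idelesOf L
  set U := unitsPart S L
  set B := idelesOf L ⊓ trivialClasses S with hB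
  have hBeq : B = P ⊔ U := idelesOf_inf_trivialClasses hSne L
  have hUT : U ≤ tIdeles T L := fun a ha => ⟨ha.1, fun ℓ _ ι => by
    by_cases hℓ : ℓ ∈ S
    · rw [ha.2.1 ℓ hℓ ι, Units.val_one, norm_one]
    · exact ha.2.2 ℓ hℓ ι⟩
  have hBst : Stable f g B := by
    rw [hBeq]; exact (stable_principalOf h).sup (stable_unitsPart h S)
  have hJst := stable_tIdeles h T
  have hBJ : B ≤ idelesOf L := inf_le_left
  have hJeq : idelesOf L = tIdeles T L ⊔ B :=
    le_antisymm (hJ.trans (sup_le_sup_left (hBeq ▸ le_sup_left) _)) (sup_le inf_le_left hBJ)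
  set B' := B ⊓ tIdeles T L with hB'
  set E := principalUnits T L
  have hB'eq : B' = E ⊔ U := by
    rw [hB', hBeq, sup_comm P U, sup_inf_eq hUT, sup_comm]
    congr 1
    exact inf_assoc _ _ _ |>.trans (congrArg (principal.range ⊓ ·)
      (inf_eq_right.2 inf_le_left))
  have hEU : E ⊓ U = ⊥ := le_bot_iff.1 <| (inf_le_inf inf_le_left inf_le_right).trans
    (principal_inf_unitsAway hSne).le
  have hEst := stable_principalUnits h T
  have hUst := stable_unitsPart h S
  have hB'st : Stable f g B' := by rw [hB'eq]; exact hEst.sup hUst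
  obtain ⟨t, ht, ht', htc⟩ := exists_idx_partOn h hT
  obtain ⟨hu, hu'⟩ := idx_unitsPart h (R := T) fun ℓ hℓ => hA ℓ fun hA' => hℓ (hAT hA')
  obtain ⟨hs, hs'⟩ := idx_unitsPart h (R := S) hS
  obtain ⟨hE0, hE⟩ := principalUnits_herbrand h hp2 hζ hζk hT htc
  have hJ0 : idx f g (tIdeles T L) = p ^ t := by
    rw [tIdeles_eq, idx_sup (stable_partOn h T) (stable_unitsPart h T)
      (partOn_inf_unitsPart T L), ht, hu, mul_one]
  have hJ1 : idx g f (tIdeles T L) = 1 := by
    rw [tIdeles_eq, idx_sup (stable_partOn h T).symm (stable_unitsPart h T).symm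
      (partOn_inf_unitsPart T L), ht', hu', mul_one]
  have hB0 : idx f g B' = idx f g E := by rw [hB'eq, idx_sup hEst hUst hEU, hs, mul_one]
  have hB1 : idx g f B' = idx g f E := by
    rw [hB'eq, idx_sup hEst.symm hUst.symm hEU, hs', mul_one]
  have hE1 : idx g f E ≠ 0 := by
    intro h0
    rw [h0, zero_mul] at hE
    exact mul_ne_zero hE0 hp.out.ne_zero hE.symm
  have q0 : qidx f g (idelesOf L) B = qidx f g (tIdeles T L) B' := by
    rw [hJeq, qidx_sup hJst hBst]
  have q1 : qidx g f (idelesOf L) B = qidx g f (tIdeles T L) B' := by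
    rw [hJeq, qidx_sup hJst.symm hBst.symm]
  rw [q0, q1]
  refine ⟨qidx_ne_zero hJst hB'st inf_le_right (by rw [hJ0]; exact pow_ne_zero _ hp.out.ne_zero)
    (by rw [hB1]; exact hE1), ?_⟩
  have hh := hexagon hJst hB'st inf_le_right
  rw [hJ0, hJ1, hB0, hB1, one_mul, mul_comm (p ^ t), hE, mul_assoc] at hh
  exact (Nat.eq_of_mul_eq_mul_left (Nat.pos_of_ne_zero hE0) hh).symm

end Fermat.Agent.ClassField.Idele.Herbrand
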