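import Mathlib.GroupTheory.Index
import Mathlib.Tactic.Ring

/-!
# Calculus of Herbrand indices inside an ambient commutative group

For endomorphisms `f g` of a commutative group and a stable subgroup `A` on which `f g = g f = 1`,
`idx f g A = [A ∩ ker f : g A]`, and `qidx f g A B` is the same index for the quotient `A / B`.
-/

set_option autoImplicit false

noncomputable section

namespace Fermat.Agent.ClassField.Idele.Herbrand

open Subgroup

variable {M : Type*} [CommGroup M]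

/-- The index `[A ∩ ker f : g A]`. -/
def idx (f g : M →* M) (A : Subgroup M) : ℕ := (A.map g).relIndex (A ⊓ f.ker)

/-- The index `[(A / B) ∩ ker f : g (A / B)]`. -/
def qidx (f g : M →* M) (A B : Subgroup M) : ℕ := (A.map g ⊔ B).relIndex (A ⊓ B.comap f)

/-- A subgroup stable under `f` and `g`, on which both compositions are trivial. -/
structure Stable (f g : M →* M) (A : Subgroup M) : Prop where
  map_left : A.map f ≤ A
  map_right : A.map g ≤ A
  comp_left : ∀ a ∈ A, f (g a) = 1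
  comp_right : ∀ a ∈ A, g (f a) = 1

theorem Stable.symm {f g : M →* M} {A : Subgroup M} (h : Stable f g A) : Stable g f A :=
  ⟨h.map_right, h.map_left, h.comp_right, h.comp_left⟩

theorem Stable.map_le {f g : M →* M} {A : Subgroup M} (h : Stable f g A) :
    A.map g ≤ A ⊓ f.ker :=
  le_inf h.map_right fun x hx => by
    obtain ⟨a, ha, rfl⟩ := hx
    exact h.comp_left a ha

theorem sup_inf_eq {A B C : Subgroup M} (h : A ≤ C) : (A ⊔ B) ⊓ C = A ⊔ B ⊓ C := by
  refine le_antisymm (fun x hx => ?_) (le_inf (sup_le le_sup_left (inf_le_left.trans le_sup_right))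
    (sup_le h inf_le_right))
  obtain ⟨a, ha, b, hb, rfl⟩ := mem_sup.1 hx.1
  refine mul_mem (mem_sup_left ha) (mem_sup_right ⟨hb, ?_⟩)
  simpa using C.mul_mem (C.inv_mem (h ha)) hx.2

theorem half_big {f g : M →* M} {A B : Subgroup M} (hA : Stable f g A) :
    idx f g A = (A.map g ⊔ B).relIndex (A ⊓ f.ker) * (A.map g).relIndex (B ⊓ A ⊓ f.ker) := by
  have h1 : A.map g ⊔ B ⊓ (A ⊓ f.ker) = (A.map g ⊔ B) ⊓ (A ⊓ f.ker) := (sup_inf_eq hA.map_le).symm
  have h2 : (A.map g).relIndex (A.map g ⊔ B ⊓ (A ⊓ f.ker)) * (A.map g ⊔ B).relIndex (A ⊓ f.ker) =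
      idx f g A := by
    rw [← inf_relIndex_right (A.map g ⊔ B), ← h1]
    exact relIndex_mul_relIndex _ _ _ le_sup_left (sup_le hA.map_le inf_le_right)
  rw [← h2, sup_comm (A.map g) (B ⊓ (A ⊓ f.ker)), relIndex_sup_right, ← inf_assoc, mul_comm]

theorem half_small {f g : M →* M} {A B : Subgroup M} (hA : Stable f g A) (hB : Stable f g B)
    (hBA : B ≤ A) :
    idx f g B = (A.map g).relIndex (B ⊓ A ⊓ f.ker) * (B.map g).relIndex (A.map g ⊓ B) := by
  have hBA' : B ⊓ A = B := inf_eq_left.2 hBA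
  rw [hBA']
  have h : A.map g ⊓ (B ⊓ f.ker) = A.map g ⊓ B :=
    le_antisymm (inf_le_inf_left _ inf_le_left)
      (le_inf inf_le_left (le_inf inf_le_right (inf_le_left.trans (hA.map_le.trans inf_le_right))))
  rw [← inf_relIndex_right (A.map g) (B ⊓ f.ker), h, mul_comm]
  exact (relIndex_mul_relIndex _ _ _ (le_inf (map_mono hBA) hB.map_right)
    (le_inf inf_le_right (inf_le_left.trans (hA.map_le.trans inf_le_right)))).symm

theorem half_quot {f g : M →* M} {A B : Subgroup M} (hA : Stable f g A) (hB : Stable f g B)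
    (hBA : B ≤ A) :
    qidx f g A B = (B.map f).relIndex (A.map f ⊓ B) * (A.map g ⊔ B).relIndex (A ⊓ f.ker) := by
  have hBX : B ≤ A ⊓ B.comap f := le_inf hBA fun b hb => hB.map_left ⟨b, hb, rfl⟩
  have hKX : A ⊓ f.ker ≤ A ⊓ B.comap f :=
    inf_le_inf_left _ fun x hx => by rw [mem_comap, MonoidHom.mem_ker.1 hx]; exact one_mem B
  have hmap : (A ⊓ B.comap f).map f = A.map f ⊓ B := by
    ext y
    constructor
    · rintro ⟨a, ⟨ha, hab⟩, rfl⟩
      exact ⟨⟨a, ha, rfl⟩, hab⟩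
    · rintro ⟨⟨a, ha, rfl⟩, hy⟩
      exact ⟨a, ⟨ha, hy⟩, rfl⟩
  have hmid : (B ⊔ f.ker) ⊓ (A ⊓ B.comap f) = A ⊓ f.ker ⊔ B := by
    rw [sup_inf_eq hBX, sup_comm]
    congr 1
    refine le_antisymm (fun x hx => ⟨hx.2.1, hx.1⟩) fun x hx => ⟨hx.2, hKX hx⟩
  have e1 : (B.map f).relIndex (A.map f ⊓ B) = (A ⊓ f.ker ⊔ B).relIndex (A ⊓ B.comap f) := by
    rw [← hmap, relIndex_map_map, ← hmid, inf_relIndex_right]
    have : (A ⊓ B.comap f) ⊔ f.ker = (A ⊓ B.comap f) ⊔ (B ⊔ f.ker) := by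
      rw [← sup_assoc, sup_eq_left.2 hBX]
    rw [this, relIndex_sup_right]
  have e2 : (A.map g ⊔ B).relIndex (A ⊓ f.ker ⊔ B) = (A.map g ⊔ B).relIndex (A ⊓ f.ker) := by
    have : A ⊓ f.ker ⊔ B = A ⊓ f.ker ⊔ (A.map g ⊔ B) := by
      rw [← sup_assoc, sup_eq_left.2 hA.map_le]
    rw [this, relIndex_sup_right]
  rw [e1, ← e2, qidx, mul_comm]
  exact (relIndex_mul_relIndex _ _ _ (sup_le_sup_right hA.map_le B) (sup_le hKX hBX)).symm

/-- Multiplicativity of the Herbrand quotient in a short exact sequence `B → A → A / B`. -/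
theorem hexagon {f g : M →* M} {A B : Subgroup M} (hA : Stable f g A) (hB : Stable f g B)
    (hBA : B ≤ A) :
    idx f g A * idx g f B * qidx g f A B = idx g f A * idx f g B * qidx f g A B := by
  rw [half_big (B := B) hA, half_small hA.symm hB.symm hBA, half_quot hA.symm hB.symm hBA,
    half_big (B := B) hA.symm, half_small hA hB hBA, half_quot hA hB hBA]
  ring

theorem Stable.sup {f g : M →* M} {A B : Subgroup M} (hA : Stable f g A) (hB : Stable f g B) :
    Stable f g (A ⊔ B) := by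
  refine ⟨?_, ?_, fun x hx => ?_, fun x hx => ?_⟩
  · rw [Subgroup.map_sup]; exact sup_le_sup hA.map_left hB.map_left
  · rw [Subgroup.map_sup]; exact sup_le_sup hA.map_right hB.map_right
  · obtain ⟨a, ha, b, hb, rfl⟩ := mem_sup.1 hx
    rw [map_mul, map_mul, hA.comp_left a ha, hB.comp_left b hb, one_mul]
  · obtain ⟨a, ha, b, hb, rfl⟩ := mem_sup.1 hx
    rw [map_mul, map_mul, hA.comp_right a ha, hB.comp_right b hb, one_mul]

theorem ker_sup_inf {f : M →* M} {A B : Subgroup M} (hAf : A.map f ≤ A) (hBf : B.map f ≤ B)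
    (hAB : A ⊓ B = ⊥) : (A ⊔ B) ⊓ f.ker = A ⊓ f.ker ⊔ B ⊓ f.ker := by
  refine le_antisymm (fun x hx => ?_) (sup_le (inf_le_inf_right _ le_sup_left)
    (inf_le_inf_right _ le_sup_right))
  obtain ⟨a, ha, b, hb, rfl⟩ := mem_sup.1 hx.1
  have h : f a * f b = 1 := by rw [← map_mul]; exact hx.2
  have hfa : f a ∈ A ⊓ B := ⟨hAf ⟨a, ha, rfl⟩, by
    rw [eq_inv_of_mul_eq_one_left h]; exact B.inv_mem (hBf ⟨b, hb, rfl⟩)⟩
  rw [hAB, mem_bot] at hfa
  rw [hfa, one_mul] at h
  exact mul_mem (mem_sup_left ⟨ha, hfa⟩) (mem_sup_right ⟨hb, h⟩)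

/-- Indices are multiplicative in direct products. -/
theorem relIndex_sup_sup {A B A' A'' B' B'' : Subgroup M} (hA' : A' ≤ A'') (hA'' : A'' ≤ A)
    (hB' : B' ≤ B'') (hB'' : B'' ≤ B) (hAB : A ⊓ B = ⊥) :
    (A' ⊔ B').relIndex (A'' ⊔ B'') = A'.relIndex A'' * B'.relIndex B'' := by
  rw [← relIndex_mul_relIndex (A' ⊔ B') (A'' ⊔ B') (A'' ⊔ B'') (sup_le_sup_right hA' _)
    (sup_le_sup_left hB' _)]
  congr 1
  · have h : A'' ⊔ B' = A'' ⊔ (A' ⊔ B') := by rw [← sup_assoc, sup_eq_left.2 hA']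
    rw [h, relIndex_sup_right, ← inf_relIndex_right, sup_inf_eq hA',
      show B' ⊓ A'' = ⊥ from le_bot_iff.1 (hAB ▸ le_inf (inf_le_right.trans hA'')
        (inf_le_left.trans (hB'.trans hB''))), sup_bot_eq]
  · have h : A'' ⊔ B'' = B'' ⊔ (A'' ⊔ B') := by
      rw [sup_left_comm, sup_eq_left.2 hB']
    rw [h, relIndex_sup_right, ← inf_relIndex_right, sup_comm A'' B', sup_inf_eq hB',
      show A'' ⊓ B'' = ⊥ from le_bot_iff.1 (hAB ▸ inf_le_inf hA'' hB''), sup_bot_eq]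

theorem idx_sup {f g : M →* M} {A B : Subgroup M} (hA : Stable f g A) (hB : Stable f g B)
    (hAB : A ⊓ B = ⊥) : idx f g (A ⊔ B) = idx f g A * idx f g B := by
  rw [idx, ker_sup_inf hA.map_left hB.map_left hAB, Subgroup.map_sup]
  exact relIndex_sup_sup hA.map_le inf_le_left hB.map_le inf_le_left hAB

theorem idx_bot (f g : M →* M) : idx f g (⊥ : Subgroup M) = 1 := by
  simp [idx]

end Fermat.Agent.ClassField.Idele.Herbrand
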