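import Fermat.Agent.ClassField.Idele.Herbrand.Restrict
import Fermat.Agent.ClassField.Idele.LocalHerbrand

/-!
# The local inputs of the Herbrand quotient of the idele classes
-/

set_option autoImplicit false

noncomputable section

open IntermediateField

namespace Fermat.Agent.ClassField.Idele.Herbrand

local notation "Qb" => AlgebraicClosure ℚ
local notation "Γ" => (AlgebraicClosure ℚ ≃ₐ[ℚ] AlgebraicClosure ℚ)

lemma partOn_singleton (ℓ : Nat.Primes) (K : IntermediateField ℚ Qb) :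
    partOn {ℓ} K = idelesAt K ℓ := by
  ext f
  exact and_congr_right fun _ => ⟨fun hf q hq ι => hf q hq ι, fun hf q hq ι => hf q hq ι⟩

lemma ncard_placesOver_singleton (ℓ : Nat.Primes) (K : IntermediateField ℚ Qb) :
    (placesOver {ℓ} K).ncard = Nat.card {w : IsDedekindDomain.HeightOneSpectrum
      (NumberField.RingOfIntegers K) // ((ℓ : ℕ) : NumberField.RingOfIntegers K) ∈ w.asIdeal} := by
  rw [← Nat.card_coe_set_eq]
  exact Nat.card_congr (Equiv.subtypeEquivRight fun w => by simp [placesOver])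

variable {p : ℕ} [hp : Fact p.Prime] {k L : IntermediateField ℚ Qb} {σ : Γ} (h : Gen p k L σ)
include h

/-- The index at one prime: `p` to the number of places which do not split. -/
theorem exists_idx_single (ℓ : Nat.Primes) :
    ∃ t : ℕ, idx (delta IdeleGroup σ) (normPow IdeleGroup σ p) (partOn {ℓ} L) = p ^ t ∧
      (placesOver {ℓ} L).ncard + (p - 1) * t = p * (placesOver {ℓ} k).ncard := by
  have := h.finiteDimensional
  obtain ⟨t, ht, htc⟩ := exists_relIndex_local h.cyclic ℓ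
  refine ⟨t, ?_, by rw [ncard_placesOver_singleton, ncard_placesOver_singleton]; exact htc⟩
  rw [← ht, idx, partOn_singleton]
  have hfix : idelesAt L ℓ ⊓ (delta IdeleGroup σ).ker = idelesAt k ℓ := by
    rw [show idelesAt L ℓ ⊓ (delta IdeleGroup σ).ker =
        (idelesOf L ⊓ (delta IdeleGroup σ).ker) ⊓ supportedAt ℓ from inf_right_comm _ _ _,
      h.invariants_inf_ker_delta]
  rw [hfix]
  congr 1
  ext a
  constructor <;>
  · rintro ⟨b, hb, rfl⟩
    exact ⟨b, hb, by rw [cosetProdHom_apply]; first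
      | exact h.relNorm_eq (M := IdeleGroup) hb.1
      | exact (h.relNorm_eq (M := IdeleGroup) hb.1).symm⟩

/-- Hilbert 90 at one prime. -/
theorem exists_delta_eq_single {ℓ : Nat.Primes} {f : IdeleGroup} (hf : f ∈ partOn {ℓ} L)
    (hN : normPow IdeleGroup σ p f = 1) : ∃ g ∈ partOn {ℓ} L, delta IdeleGroup σ g = f := by
  rw [partOn_singleton] at hf ⊢
  obtain ⟨g, hg, hge⟩ := exists_smul_eq_mul_local h.cyclic σ h.mem h.notMem hf
    ((h.relNorm_eq hf.1).trans hN)
  exact ⟨g, hg, by rw [delta_apply, hge, mul_div_cancel_right]⟩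

/-- Hilbert 90 for the units at an unramified prime. -/
theorem exists_delta_eq_single_unit {ℓ : Nat.Primes} (hl : IsUnramifiedAt k L ℓ) {f : IdeleGroup}
    (hf : f ∈ idelesOf L) (hu : ∀ ι : Emb ℓ, ‖((f : Raw) ℓ ι : PadicAlgCl (ℓ : ℕ))‖ = 1)
    (hN : ∀ ι : Emb ℓ, ((normPow IdeleGroup σ p f : IdeleGroup) : Raw) ℓ ι = 1) :
    ∃ g ∈ idelesOf L, (∀ ι : Emb ℓ, ‖((g : Raw) ℓ ι : PadicAlgCl (ℓ : ℕ))‖ = 1) ∧
      ∀ ι : Emb ℓ, ((delta IdeleGroup σ g : IdeleGroup) : Raw) ℓ ι = (f : Raw) ℓ ι := by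
  have hmem : restrict {ℓ} f ∈ idelesAt L ℓ := by
    rw [← partOn_singleton]; exact ⟨restrict_mem_idelesOf hf, restrict_mem_supported _ f⟩
  have hval : ∀ ι : Emb ℓ, ((restrict {ℓ} f : IdeleGroup) : Raw) ℓ ι = (f : Raw) ℓ ι :=
    fun ι => restrict_apply_mem (Set.mem_singleton ℓ) f ι
  have hN' : relNorm k L (restrict {ℓ} f) = 1 := by
    rw [h.relNorm_eq hmem.1, ← map_restrict_normPow]
    refine Subtype.ext (Raw.ext fun q ι => ?_)
    by_cases hq : q = ℓ
    · subst hq
      rw [restrict_apply_mem (Set.mem_singleton q), hN ι]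
      rfl
    · rw [restrict_apply_notMem (fun h => hq (Set.mem_singleton_iff.1 h))]
      rfl
  obtain ⟨g, hg, hgu, hge⟩ := exists_smul_eq_mul_local_unit h.cyclic hl σ h.mem h.notMem hmem
    (fun ι => by rw [hval]; exact hu ι) hN'
  refine ⟨g, hg.1, hgu, fun ι => ?_⟩
  rw [delta_apply, hge, mul_div_cancel_right, hval]

end Fermat.Agent.ClassField.Idele.Herbrand
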