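import Fermat.Agent.ClassField.Idele.CosetProd
import Fermat.Agent.ClassField.Idele.Herbrand.Calculus

/-!
# The operators `σ - 1` and `N` of a cyclic extension of prime degree
-/

set_option autoImplicit false

noncomputable section

open IntermediateField

namespace Fermat.Agent.ClassField.Idele.Herbrand

local notation "Qb" => AlgebraicClosure ℚ
local notation "Γ" => (AlgebraicClosure ℚ ≃ₐ[ℚ] AlgebraicClosure ℚ)

variable (M : Type*) [CommGroup M] [MulDistribMulAction Γ M]

/-- The operator `x ↦ σ x / x`. -/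
def delta (σ : Γ) : M →* M :=
  MulDistribMulAction.toMonoidHom M σ / MonoidHom.id M

/-- The operator `x ↦ x (σ x) ⋯ (σ ^ (p - 1) x)`. -/
def normPow (σ : Γ) (p : ℕ) : M →* M :=
  ∏ i ∈ Finset.range p, MulDistribMulAction.toMonoidHom M (σ ^ i)

variable {M}

lemma delta_apply (σ : Γ) (x : M) : delta M σ x = σ • x / x := rfl

lemma normPow_apply (σ : Γ) (p : ℕ) (x : M) :
    normPow M σ p x = ∏ i ∈ Finset.range p, σ ^ i • x := by
  simp [normPow, MonoidHom.finsetProd_apply]

lemma mem_ker_delta {σ : Γ} {x : M} : x ∈ (delta M σ).ker ↔ σ • x = x := by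
  rw [MonoidHom.mem_ker, delta_apply, div_eq_one]

lemma map_delta {N : Type*} [CommGroup N] [MulDistribMulAction Γ N] (φ : M →* N)
    (hφ : ∀ (σ : Γ) (m : M), φ (σ • m) = σ • φ m) (σ : Γ) (x : M) :
    φ (delta M σ x) = delta N σ (φ x) := by
  rw [delta_apply, delta_apply, map_div, hφ]

lemma map_normPow {N : Type*} [CommGroup N] [MulDistribMulAction Γ N] (φ : M →* N)
    (hφ : ∀ (σ : Γ) (m : M), φ (σ • m) = σ • φ m) (σ : Γ) (p : ℕ) (x : M) :
    φ (normPow M σ p x) = normPow N σ p (φ x) := by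
  simp only [normPow_apply, map_prod, hφ]

/-- A cyclic extension of prime degree with a chosen generator. -/
structure Gen (p : ℕ) (k L : IntermediateField ℚ Qb) (σ : Γ) : Prop where
  cyclic : IsPrimeCyclic p k L
  mem : σ ∈ k.fixingSubgroup
  notMem : σ ∉ L.fixingSubgroup

variable {p : ℕ} [hp : Fact p.Prime] {k L : IntermediateField ℚ Qb} {σ : Γ} (h : Gen p k L σ)
include h

omit hp in
lemma Gen.finiteDimensional : FiniteDimensional ℚ L := h.cyclic.finite

lemma Gen.exists_equiv :
    ∃ e : Fin p ≃ k.fixingSubgroup ⧸ L.fixingSubgroup.subgroupOf k.fixingSubgroup,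
      ∀ i : Fin p, QuotientGroup.mk ((⟨σ, h.mem⟩ : k.fixingSubgroup) ^ (i : ℕ)) = e i := by
  have := h.cyclic.normal
  set s : k.fixingSubgroup := ⟨σ, h.mem⟩
  set t := (QuotientGroup.mk s : k.fixingSubgroup ⧸ L.fixingSubgroup.subgroupOf k.fixingSubgroup)
  have hcard : Nat.card (k.fixingSubgroup ⧸ L.fixingSubgroup.subgroupOf k.fixingSubgroup) = p :=
    h.cyclic.index_eq
  have ht : t ≠ 1 := fun ht => h.notMem (Subgroup.mem_subgroupOf.1 ((QuotientGroup.eq_one_iff s).1 ht))
  have hord : orderOf t = p := by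
    have hdvd : orderOf t ∣ p := hcard ▸ orderOf_dvd_natCard t
    exact ((Nat.dvd_prime hp.out).1 hdvd).resolve_left (fun h1 => ht (orderOf_eq_one_iff.1 h1))
  have hbij : Function.Bijective fun i : Fin p => t ^ (i : ℕ) := by
    have : Finite (k.fixingSubgroup ⧸ L.fixingSubgroup.subgroupOf k.fixingSubgroup) :=
      Nat.finite_of_card_ne_zero (by rw [hcard]; exact hp.out.ne_zero)
    refine (Nat.bijective_iff_injective_and_card _).2 ⟨fun i j hij => Fin.ext ?_, by simp [hcard]⟩
    exact pow_injOn_Iio_orderOf (by rw [Set.mem_Iio, hord]; exact i.2)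
      (by rw [Set.mem_Iio, hord]; exact j.2) hij
  exact ⟨Equiv.ofBijective _ hbij, fun i => rfl⟩

/-- Every element fixing `k` is a power of `σ` times an element fixing `L`. -/
lemma Gen.exists_pow_mul {τ : Γ} (hτ : τ ∈ k.fixingSubgroup) :
    ∃ i < p, ∃ u ∈ L.fixingSubgroup, τ = σ ^ i * u := by
  obtain ⟨e, he⟩ := h.exists_equiv
  obtain ⟨i, hi⟩ := e.surjective (QuotientGroup.mk ⟨τ, hτ⟩)
  rw [← he i, QuotientGroup.eq, Subgroup.mem_subgroupOf] at hi
  exact ⟨i, i.2, _, hi, by simp⟩

lemma Gen.pow_mem : σ ^ p ∈ L.fixingSubgroup := by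
  obtain ⟨e, he⟩ := h.exists_equiv
  obtain ⟨i, hi, u, hu, hiu⟩ := h.exists_pow_mul (k.fixingSubgroup.pow_mem h.mem p)
  by_cases h0 : i = 0
  · rw [hiu, h0, pow_zero, one_mul]; exact hu
  · exfalso
    have hmem : σ ^ (p - i) ∈ L.fixingSubgroup := by
      have : σ ^ (p - i) = u := by
        apply mul_left_cancel (a := σ ^ i)
        rw [← pow_add, Nat.add_sub_cancel' hi.le, hiu]
      rw [this]; exact hu
    have h1 : e ⟨p - i, by omega⟩ = e ⟨0, hp.out.pos⟩ := by
      rw [← he, ← he, pow_zero, QuotientGroup.eq, mul_one, Subgroup.mem_subgroupOf]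
      exact L.fixingSubgroup.inv_mem (by simpa using hmem)
    have := congrArg Fin.val (e.injective h1)
    simp only at this
    omega

omit hp in
lemma Gen.fix_le : L.fixingSubgroup ≤ k.fixingSubgroup := fixingSubgroup_antitone h.cyclic.le

omit hp in
lemma Gen.conj_mem {u : Γ} (hu : u ∈ L.fixingSubgroup) :
    σ⁻¹ * u * σ ∈ L.fixingSubgroup := by
  have hn := h.cyclic.normal.conj_mem (⟨u, h.fix_le hu⟩ : k.fixingSubgroup)
    (Subgroup.mem_subgroupOf.2 hu) (⟨σ, h.mem⟩ : k.fixingSubgroup)⁻¹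
  simpa [Subgroup.mem_subgroupOf] using hn

omit hp in
lemma Gen.smul_mem {m : M} (hm : m ∈ invariants M L.fixingSubgroup) :
    σ • m ∈ invariants M L.fixingSubgroup := by
  intro u hu
  calc u • σ • m = σ • (σ⁻¹ * u * σ) • m := by rw [← mul_smul, ← mul_smul]; congr 1; group
    _ = σ • m := by rw [hm _ (h.conj_mem hu)]

omit hp in
lemma Gen.pow_smul_mem {m : M} (hm : m ∈ invariants M L.fixingSubgroup) (i : ℕ) :
    σ ^ i • m ∈ invariants M L.fixingSubgroup := by
  induction i with
  | zero => rwa [pow_zero, one_smul]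
  | succ i ih => rw [pow_succ', mul_smul]; exact h.smul_mem ih

lemma Gen.pow_smul {m : M} (hm : m ∈ invariants M L.fixingSubgroup) : σ ^ p • m = m :=
  hm _ h.pow_mem

/-- Fixed by `σ` and the group of `L` means fixed by the group of `k`. -/
lemma Gen.mem_invariants {m : M} (hm : m ∈ invariants M L.fixingSubgroup) (hσ : σ • m = m) :
    m ∈ invariants M k.fixingSubgroup := by
  intro τ hτ
  obtain ⟨i, -, u, hu, rfl⟩ := h.exists_pow_mul hτ
  rw [mul_smul, hm u hu]
  clear hu hτ
  induction i with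
  | zero => rw [pow_zero, one_smul]
  | succ i ih => rw [pow_succ, mul_smul, hσ, ih]

lemma Gen.invariants_inf_ker_delta :
    invariants M L.fixingSubgroup ⊓ (delta M σ).ker = invariants M k.fixingSubgroup := by
  refine le_antisymm (fun m hm => h.mem_invariants hm.1 (mem_ker_delta.1 hm.2))
    fun m hm => ⟨fun u hu => hm u (h.fix_le hu), mem_ker_delta.2 (hm σ h.mem)⟩

/-- The relative norm is the product of the conjugates. -/
lemma Gen.relNorm_eq {m : M} (hm : m ∈ invariants M L.fixingSubgroup) :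
    relNorm k L m = normPow M σ p m := by
  obtain ⟨e, he⟩ := h.exists_equiv
  rw [relNorm, cosetProd_eq_finprod hm e (fun i => (⟨σ, h.mem⟩ : k.fixingSubgroup) ^ (i : ℕ)) he,
    finprod_eq_prod_of_fintype, normPow_apply, ← Fin.prod_univ_eq_prod_range]
  exact Finset.prod_congr rfl fun i _ => rfl

lemma Gen.smul_normPow {m : M} (hm : m ∈ invariants M L.fixingSubgroup) :
    σ • normPow M σ p m = normPow M σ p m := by
  rw [normPow_apply, Finset.smul_prod']
  have e1 := Finset.prod_range_succ' (fun i => σ ^ i • m) p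
  have e2 := Finset.prod_range_succ (fun i => σ ^ i • m) p
  rw [e2, h.pow_smul hm, pow_zero, one_smul] at e1
  rw [mul_right_cancel e1]
  exact Finset.prod_congr rfl fun i _ => by rw [smul_smul, ← pow_succ']

lemma Gen.normPow_delta {m : M} (hm : m ∈ invariants M L.fixingSubgroup) :
    normPow M σ p (delta M σ m) = 1 := by
  rw [delta_apply, map_div]
  have : normPow M σ p (σ • m) = σ • normPow M σ p m := by
    rw [normPow_apply, normPow_apply, Finset.smul_prod']
    exact Finset.prod_congr rfl fun i _ => by rw [smul_smul, smul_smul, ← pow_succ, ← pow_succ']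
  rw [this, h.smul_normPow hm, div_self']

/-- A subgroup of the invariants of `L` stable under `σ` is stable for both operators. -/
lemma Gen.stable {A : Subgroup M} (hA : A ≤ invariants M L.fixingSubgroup)
    (hσ : ∀ a ∈ A, σ • a ∈ A) : Stable (delta M σ) (normPow M σ p) A := by
  have hpow : ∀ (i : ℕ), ∀ a ∈ A, σ ^ i • a ∈ A := fun i => by
    induction i with
    | zero => intro a ha; rwa [pow_zero, one_smul]
    | succ i ih => intro a ha; rw [pow_succ, mul_smul]; exact ih _ (hσ a ha)
  refine ⟨?_, ?_, fun a ha => ?_, fun a ha => h.normPow_delta (hA ha)⟩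
  · rintro _ ⟨a, ha, rfl⟩
    rw [delta_apply]; exact A.div_mem (hσ a ha) ha
  · rintro _ ⟨a, ha, rfl⟩
    rw [normPow_apply]; exact A.prod_mem fun i _ => hpow i a ha
  · rw [delta_apply, h.smul_normPow (hA ha), div_self']

end Fermat.Agent.ClassField.Idele.Herbrand
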