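import Fermat.Agent.ClassField.Idele.Herbrand.LocalInput

/-!
# Herbrand indices of principal ideles, units and finitely many components
-/

set_option autoImplicit false

noncomputable section

open IntermediateField

namespace Fermat.Agent.ClassField.Idele.Herbrand

local notation "Qb" => AlgebraicClosure ℚ
local notation "Γ" => (AlgebraicClosure ℚ ≃ₐ[ℚ] AlgebraicClosure ℚ)

variable {p : ℕ} [hp : Fact p.Prime] {k L : IntermediateField ℚ Qb} {σ : Γ} (h : Gen p k L σ)

omit hp in
/-- An index is one when every kernel element is an image. -/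
lemma idx_eq_one {M : Type*} [CommGroup M] {f g : M →* M} {A : Subgroup M}
    (H : ∀ a ∈ A, f a = 1 → ∃ b ∈ A, g b = a) : idx f g A = 1 :=
  Subgroup.relIndex_eq_one.2 fun a ha => Subgroup.mem_map.2 (H a ha.1 ha.2)

include h

/-- Units away from a set containing the ramification have trivial Herbrand indices. -/
theorem idx_unitsPart {R : Set Nat.Primes} (hR : ∀ ℓ ∉ R, IsUnramifiedAt k L ℓ) :
    idx (delta IdeleGroup σ) (normPow IdeleGroup σ p) (unitsPart R L) = 1 ∧
      idx (normPow IdeleGroup σ p) (delta IdeleGroup σ) (unitsPart R L) = 1 := by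
  classical
  have := h.finiteDimensional
  refine ⟨idx_eq_one fun a ha hda => ?_, idx_eq_one fun a ha hNa => ?_⟩
  · have hak : a ∈ idelesOf k := h.mem_invariants ha.1 (mem_ker_delta.1 hda)
    have hex : ∀ ℓ : Nat.Primes, ∃ g : IdeleGroup, ℓ ∉ R → g ∈ idelesOf L ∧
        (∀ ι : Emb ℓ, ‖((g : Raw) ℓ ι : PadicAlgCl (ℓ : ℕ))‖ = 1) ∧
        ∀ ι : Emb ℓ, ((relNorm k L g : IdeleGroup) : Raw) ℓ ι = (a : Raw) ℓ ι := by
      intro ℓ
      by_cases hℓ : ℓ ∈ R
      · exact ⟨1, fun h => absurd hℓ h⟩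
      · obtain ⟨g, hg, -, hgu, hge⟩ :=
          exists_relNorm_eq_of_unit h.cyclic (hR ℓ hℓ) hak (ha.2.2 ℓ hℓ)
        exact ⟨g, fun _ => ⟨hg, hgu, hge⟩⟩
    choose G hG using hex
    obtain ⟨g, hg, hgG⟩ := exists_glue (L := L) R G (fun ℓ hℓ => (hG ℓ hℓ).1)
      (fun ℓ hℓ => (hG ℓ hℓ).2.1)
    refine ⟨g, hg, Subtype.ext (Raw.ext fun ℓ ι => ?_)⟩
    rw [normPow_component]
    by_cases hℓ : ℓ ∈ R
    · rw [Finset.prod_eq_one fun i _ => hg.2.1 ℓ hℓ _]
      exact (ha.2.1 ℓ hℓ ι).symm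
    · rw [← (hG ℓ hℓ).2.2 ι, h.relNorm_eq (hG ℓ hℓ).1, normPow_component]
      exact Finset.prod_congr rfl fun i _ => hgG ℓ hℓ _
  · have hex : ∀ ℓ : Nat.Primes, ∃ g : IdeleGroup, ℓ ∉ R → g ∈ idelesOf L ∧
        (∀ ι : Emb ℓ, ‖((g : Raw) ℓ ι : PadicAlgCl (ℓ : ℕ))‖ = 1) ∧
        ∀ ι : Emb ℓ, ((delta IdeleGroup σ g : IdeleGroup) : Raw) ℓ ι = (a : Raw) ℓ ι := by
      intro ℓ
      by_cases hℓ : ℓ ∈ R
      · exact ⟨1, fun h => absurd hℓ h⟩
      · obtain ⟨g, hg⟩ := exists_delta_eq_single_unit h (hR ℓ hℓ) ha.1 (ha.2.2 ℓ hℓ)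
          fun ι => by rw [hNa]; rfl
        exact ⟨g, fun _ => hg⟩
    choose G hG using hex
    obtain ⟨g, hg, hgG⟩ := exists_glue (L := L) R G (fun ℓ hℓ => (hG ℓ hℓ).1)
      (fun ℓ hℓ => (hG ℓ hℓ).2.1)
    refine ⟨g, hg, Subtype.ext (Raw.ext fun ℓ ι => ?_)⟩
    rw [delta_component]
    by_cases hℓ : ℓ ∈ R
    · rw [hg.2.1 ℓ hℓ, hg.2.1 ℓ hℓ, div_self']
      exact (ha.2.1 ℓ hℓ ι).symm
    · rw [← (hG ℓ hℓ).2.2 ι, delta_component, hgG ℓ hℓ, hgG ℓ hℓ]

omit h in
lemma ncard_placesOver_insert (K : IntermediateField ℚ Qb) [FiniteDimensional ℚ K]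
    {ℓ : Nat.Primes} {T : Set Nat.Primes} (hℓ : ℓ ∉ T) (hT : T.Finite) :
    (placesOver (insert ℓ T) K).ncard = (placesOver {ℓ} K).ncard + (placesOver T K).ncard := by
  rw [← Set.ncard_union_eq ?_ (finite_placesOver (Set.finite_singleton ℓ)) (finite_placesOver hT)]
  · congr 1
    ext w
    simp only [placesOver, Set.mem_setOf_eq, Set.mem_union, Set.mem_insert_iff, Set.mem_singleton_iff]
    constructor
    · rintro ⟨q, rfl | hq, hw⟩
      · exact Or.inl ⟨q, rfl, hw⟩
      · exact Or.inr ⟨q, hq, hw⟩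
    · rintro (⟨q, rfl, hw⟩ | ⟨q, hq, hw⟩)
      · exact ⟨q, Or.inl rfl, hw⟩
      · exact ⟨q, Or.inr hq, hw⟩
  · rw [Set.disjoint_left]
    rintro w ⟨q, rfl, hw⟩ ⟨q', hq', hw'⟩
    exact hℓ (prime_unique hw hw' ▸ hq')

/-- The indices of finitely many components. -/
theorem exists_idx_partOn {T : Set Nat.Primes} (hT : T.Finite) :
    ∃ t : ℕ, idx (delta IdeleGroup σ) (normPow IdeleGroup σ p) (partOn T L) = p ^ t ∧
      idx (normPow IdeleGroup σ p) (delta IdeleGroup σ) (partOn T L) = 1 ∧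
      (placesOver T L).ncard + (p - 1) * t = p * (placesOver T k).ncard := by
  have := h.finiteDimensional
  have : FiniteDimensional ℚ k := Module.Finite.of_injective
    (IntermediateField.inclusion h.cyclic.le).toLinearMap
    (IntermediateField.inclusion_injective h.cyclic.le)
  induction T, hT using Set.Finite.induction_on with
  | empty =>
    refine ⟨0, by rw [partOn_empty, idx_bot, pow_zero], by rw [partOn_empty, idx_bot], ?_⟩
    simp [placesOver]
  | @insert ℓ T hℓ hT ih =>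
    obtain ⟨t, ht, ht', htc⟩ := ih
    obtain ⟨s, hs, hsc⟩ := exists_idx_single h ℓ
    have hs' : idx (normPow IdeleGroup σ p) (delta IdeleGroup σ) (partOn {ℓ} L) = 1 :=
      idx_eq_one fun a ha hN => exists_delta_eq_single h ha hN
    refine ⟨s + t, ?_, ?_, ?_⟩
    · rw [partOn_insert, idx_sup (stable_partOn h _) (stable_partOn h _) (partOn_inf_partOn hℓ L),
        hs, ht, pow_add]
    · rw [partOn_insert, idx_sup (stable_partOn h _).symm (stable_partOn h _).symm
        (partOn_inf_partOn hℓ L), hs', ht', one_mul]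
    · rw [ncard_placesOver_insert L hℓ hT, ncard_placesOver_insert k hℓ hT, mul_add, mul_add]
      linarith

/-- Hilbert 90 for principal ideles. -/
theorem idx_principalOf :
    idx (normPow IdeleGroup σ p) (delta IdeleGroup σ) (principal.range ⊓ idelesOf L) = 1 := by
  classical
  refine idx_eq_one ?_
  rintro _ ⟨⟨x, rfl⟩, hxL⟩ hN
  have := h.finiteDimensional
  have hxfix : ∀ u ∈ L.fixingSubgroup, u • x = x := fun u hu => by
    have := hxL u hu
    rw [smul_principal] at this
    exact principal_injective this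
  have hN' : normPow Qbˣ σ p x = 1 := principal_injective (by
    rw [map_normPow principal (fun τ y => (smul_principal τ y).symm), hN, map_one])
  let c : ℕ → Qbˣ := fun n => ∏ i ∈ Finset.range n, σ ^ i • x
  have hper : ∀ n, σ ^ (n + p) • x = σ ^ n • x := fun n => by
    rw [pow_add, mul_smul, h.pow_smul (M := Qbˣ) hxfix]
  obtain ⟨F, hLF, hFfin, hFnor, -⟩ := exists_normal_level 1 L
  have hcp : ∀ n, c (n + p) = c n := by
    intro n
    induction n with
    | zero =>
      rw [zero_add]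
      show ∏ i ∈ Finset.range p, σ ^ i • x = ∏ i ∈ Finset.range 0, σ ^ i • x
      rw [← normPow_apply, hN', Finset.range_zero, Finset.prod_empty]
    | succ n ih =>
      show ∏ i ∈ Finset.range (n + 1 + p), σ ^ i • x = ∏ i ∈ Finset.range (n + 1), σ ^ i • x
      rw [show n + 1 + p = (n + p) + 1 by ring, Finset.prod_range_succ, Finset.prod_range_succ,
        hper]
      exact congrArg (· * _) ih
  have hmod : ∀ n, c n = c (n % p) := fun n => by
    conv_lhs => rw [← Nat.mod_add_div n p]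
    generalize n / p = q
    induction q with
    | zero => simp
    | succ q ih => rw [Nat.mul_succ, ← add_assoc, hcp, ih]
  have hadd : ∀ m n, c (m + n) = σ ^ m • c n * c m := fun m n => by
    show ∏ i ∈ Finset.range (m + n), σ ^ i • x = _
    rw [Finset.prod_range_add, Finset.smul_prod', mul_comm]
    congr 1
    exact Finset.prod_congr rfl fun i _ => by rw [← mul_smul, ← pow_add]
  -- exponents
  obtain ⟨e, he⟩ := h.exists_equiv
  have := h.cyclic.normal
  let a : Γ → Qbˣ := fun τ =>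
    if hτ : τ ∈ k.fixingSubgroup then c (e.symm (QuotientGroup.mk ⟨τ, hτ⟩)) else 1
  have ha : ∀ (i : ℕ) (u : Γ), u ∈ L.fixingSubgroup → a (σ ^ i * u) = c i := by
    intro i u hu
    have hmem : σ ^ i * u ∈ k.fixingSubgroup :=
      k.fixingSubgroup.mul_mem (k.fixingSubgroup.pow_mem h.mem i) (h.fix_le hu)
    simp only [a, dif_pos hmem]
    rw [hmod i]
    congr 1
    refine Fin.mk.inj_iff.1 (?_ : e.symm _ = (⟨i % p, Nat.mod_lt _ hp.out.pos⟩ : Fin p))
    rw [Equiv.symm_apply_eq, ← he, QuotientGroup.eq, Subgroup.mem_subgroupOf]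
    have hp' : ∀ q : ℕ, σ ^ (p * q) ∈ L.fixingSubgroup := fun q => by
      rw [pow_mul]; exact L.fixingSubgroup.pow_mem h.pow_mem q
    have : ((σ ^ i * u)⁻¹ * σ ^ (i % p) : Γ) = u⁻¹ * (σ ^ (p * (i / p)))⁻¹ := by
      conv_lhs => rw [show σ ^ i = σ ^ (i % p) * σ ^ (p * (i / p)) by
        rw [← pow_add, Nat.mod_add_div]]
      group
    simp only [Subgroup.coe_mul, InvMemClass.coe_inv, SubmonoidClass.coe_pow]
    rw [this]
    exact L.fixingSubgroup.mul_mem (L.fixingSubgroup.inv_mem hu)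
      (L.fixingSubgroup.inv_mem (hp' (i / p)))
  obtain ⟨y, -, hy⟩ := exists_smul_eq_mul (L := F) k.fixingSubgroup a
    (fun τ hτ τ' hτ' => by
      obtain ⟨i, -, u, hu, rfl⟩ := h.exists_pow_mul hτ
      obtain ⟨j, -, u', hu', rfl⟩ := h.exists_pow_mul hτ'
      have hconj : (σ ^ j)⁻¹ * u * σ ^ j ∈ L.fixingSubgroup := by
        clear hτ'
        induction j with
        | zero => simpa using hu
        | succ j ih =>
          have := h.conj_mem ih
          rwa [show (σ ^ (j + 1))⁻¹ * u * σ ^ (j + 1) =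
            σ⁻¹ * ((σ ^ j)⁻¹ * u * σ ^ j) * σ by rw [pow_succ]; group]
      rw [show σ ^ i * u * (σ ^ j * u') = σ ^ (i + j) * (((σ ^ j)⁻¹ * u * σ ^ j) * u') by
        rw [pow_add]; group, ha _ _ (L.fixingSubgroup.mul_mem hconj hu'), ha _ _ hu, ha _ _ hu',
        hadd, mul_smul]
      congr 2
      show c j = u • c j
      rw [Finset.smul_prod']
      exact Finset.prod_congr rfl fun r _ => (h.pow_smul_mem (M := Qbˣ) hxfix r u hu).symm)
    (fun τ hτ => by
      obtain ⟨i, -, u, hu, rfl⟩ := h.exists_pow_mul hτ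
      rw [ha _ _ hu]
      refine mem_of_forall_fixingSubgroup F fun v hv => ?_
      have hvL : v ∈ L.fixingSubgroup := fixingSubgroup_antitone hLF hv
      have : v • c i = c i := by
        rw [Finset.smul_prod']
        exact Finset.prod_congr rfl fun r _ => h.pow_smul_mem (M := Qbˣ) hxfix r v hvL
      exact congrArg Units.val this)
    (fun τ hτ τ' hτ' hag => by
      obtain ⟨i, -, u, hu, rfl⟩ := h.exists_pow_mul hτ
      have hd : (σ ^ i * u)⁻¹ * τ' ∈ L.fixingSubgroup := by
        rw [IntermediateField.mem_fixingSubgroup_iff]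
        intro z hz
        show (σ ^ i * u).symm (τ' z) = z
        rw [← hag z (hLF hz), AlgEquiv.symm_apply_apply]
      rw [ha _ _ hu, show τ' = σ ^ i * (u * ((σ ^ i * u)⁻¹ * τ')) by group,
        ha _ _ (L.fixingSubgroup.mul_mem hu hd)])
  have hyL : ∀ u ∈ L.fixingSubgroup, u • y = y := fun u hu => by
    have h1 := hy u (h.fix_le hu)
    have h2 : a u = 1 := by
      have := ha 0 u hu
      simpa [c] using this
    rw [h1, h2, inv_one, one_mul]
  refine ⟨principal y⁻¹, ⟨⟨_, rfl⟩, fun u hu => ?_⟩, ?_⟩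
  · rw [smul_principal, smul_inv', hyL u hu]
  · have h1 := hy σ h.mem
    have h2 : a σ = x := by
      have := ha 1 1 (one_mem _)
      rw [pow_one, mul_one] at this
      rw [this]
      show ∏ r ∈ Finset.range 1, σ ^ r • x = x
      rw [Finset.prod_range_one, pow_zero, one_smul]
    rw [← map_delta principal (fun τ z => (smul_principal τ z).symm)]
    congr 1
    rw [delta_apply, smul_inv', h1, h2]
    rw [mul_inv, inv_inv, div_inv_eq_mul, mul_assoc, inv_mul_cancel, mul_one]

end Fermat.Agent.ClassField.Idele.Herbrand
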