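import Fermat.Agent.ClassField.Idele.Herbrand.TUnits
import Fermat.Agent.ClassField.Idele.Herbrand.Ops

/-!
# Componentwise arguments for ideles: supports, gluing, decomposition
-/

set_option autoImplicit false

noncomputable section

open IntermediateField

namespace Fermat.Agent.ClassField.Idele.Herbrand

local notation "Qb" => AlgebraicClosure ℚ
local notation "Γ" => (AlgebraicClosure ℚ ≃ₐ[ℚ] AlgebraicClosure ℚ)

/-- Evaluation of the component at an embedding. -/
def evalAt {ℓ : Nat.Primes} (ι : Emb ℓ) : IdeleGroup →* (PadicAlgCl (ℓ : ℕ))ˣ where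
  toFun f := (f : Raw) ℓ ι
  map_one' := rfl
  map_mul' _ _ := rfl

/-- Ideles trivial outside `T`. -/
def supported (T : Set Nat.Primes) : Subgroup IdeleGroup where
  carrier := {f | ∀ ℓ ∉ T, ∀ ι, (f : Raw) ℓ ι = 1}
  one_mem' := fun _ _ _ => rfl
  mul_mem' := fun {f g} hf hg ℓ h ι => by simp [hf ℓ h ι, hg ℓ h ι]
  inv_mem' := fun {f} hf ℓ h ι => by simp [hf ℓ h ι]

/-- The ideles of `L` trivial outside `T`. -/
abbrev partOn (T : Set Nat.Primes) (L : IntermediateField ℚ Qb) : Subgroup IdeleGroup :=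
  idelesOf L ⊓ supported T

/-- The ideles of `L` trivial on `T` and units outside `T`. -/
abbrev unitsPart (T : Set Nat.Primes) (L : IntermediateField ℚ Qb) : Subgroup IdeleGroup :=
  idelesOf L ⊓ unitsAway T

/-- The ideles of `L` that are units outside `T`. -/
abbrev tIdeles (T : Set Nat.Primes) (L : IntermediateField ℚ Qb) : Subgroup IdeleGroup :=
  idelesOf L ⊓ unitsOutside T

lemma smul_mem_supported {T : Set Nat.Primes} (σ : Γ) {f : IdeleGroup} (hf : f ∈ supported T) :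
    σ • f ∈ supported T := fun ℓ h _ => hf ℓ h _

open Classical in
/-- Keep the components in `R`, put `1` elsewhere. -/
def restrictRaw (R : Set Nat.Primes) (f : Raw) : Raw := fun ℓ ι => if ℓ ∈ R then f ℓ ι else 1

lemma restrictRaw_mem (R : Set Nat.Primes) {f : IdeleGroup} :
    restrictRaw R (f : Raw) ∈ ideles := by
  classical
  obtain ⟨he, ⟨K, hK, hfix⟩, A, hA⟩ := f.2
  refine ⟨fun ℓ τ ι => ?_, ⟨K, hK, fun σ hσ => Raw.ext fun ℓ ι => ?_⟩, A, fun ℓ hℓ ι => ?_⟩
  · simp only [restrictRaw]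
    split_ifs with h
    · exact he ℓ τ ι
    · simp
  · simp only [Raw.smul_apply, restrictRaw]
    split_ifs with h
    · exact congrArg (fun g : Raw => g ℓ ι) (hfix σ hσ)
    · rfl
  · simp only [restrictRaw]
    split_ifs with h
    · exact hA ℓ hℓ ι
    · simp

/-- Restriction of an idele to a set of primes. -/
def restrict (R : Set Nat.Primes) : IdeleGroup →* IdeleGroup where
  toFun f := ⟨restrictRaw R (f : Raw), restrictRaw_mem R⟩
  map_one' := Subtype.ext (Raw.ext fun ℓ ι => by simp [restrictRaw])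
  map_mul' f g := Subtype.ext (Raw.ext fun ℓ ι => by
    classical
    simp only [restrictRaw, Subgroup.coe_mul, Raw.mul_apply]
    split_ifs <;> simp)

lemma restrict_apply_mem {R : Set Nat.Primes} {ℓ : Nat.Primes} (h : ℓ ∈ R) (f : IdeleGroup)
    (ι : Emb ℓ) : ((restrict R f : IdeleGroup) : Raw) ℓ ι = (f : Raw) ℓ ι := if_pos h

lemma restrict_apply_notMem {R : Set Nat.Primes} {ℓ : Nat.Primes} (h : ℓ ∉ R) (f : IdeleGroup)
    (ι : Emb ℓ) : ((restrict R f : IdeleGroup) : Raw) ℓ ι = 1 := if_neg h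

lemma smul_restrict (R : Set Nat.Primes) (σ : Γ) (f : IdeleGroup) :
    restrict R (σ • f) = σ • restrict R f := Subtype.ext (Raw.ext fun ℓ ι => by
  classical
  show restrictRaw R (σ • (f : Raw)) ℓ ι = restrictRaw R (f : Raw) ℓ (globalComp ι σ)
  simp only [restrictRaw, Raw.smul_apply])

lemma restrict_mem_idelesOf {R : Set Nat.Primes} {L : IntermediateField ℚ Qb} {f : IdeleGroup}
    (hf : f ∈ idelesOf L) : restrict R f ∈ idelesOf L := fun σ hσ => by
  rw [← smul_restrict, hf σ hσ]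

lemma restrict_mem_supported (R : Set Nat.Primes) (f : IdeleGroup) :
    restrict R f ∈ supported R := fun _ h ι => restrict_apply_notMem h f ι

variable {p : ℕ} [hp : Fact p.Prime] {k L : IntermediateField ℚ Qb} {σ : Γ}

omit hp in
lemma normPow_component (f : IdeleGroup) (ℓ : Nat.Primes) (ι : Emb ℓ) :
    ((normPow IdeleGroup σ p f : IdeleGroup) : Raw) ℓ ι =
      ∏ i ∈ Finset.range p, (f : Raw) ℓ (globalComp ι (σ ^ i)) := by
  change evalAt ι (normPow IdeleGroup σ p f) = _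
  rw [normPow_apply, map_prod]
  rfl

omit hp in
lemma delta_component (f : IdeleGroup) (ℓ : Nat.Primes) (ι : Emb ℓ) :
    ((delta IdeleGroup σ f : IdeleGroup) : Raw) ℓ ι =
      (f : Raw) ℓ (globalComp ι σ) / (f : Raw) ℓ ι := by
  change evalAt ι (delta IdeleGroup σ f) = _
  rw [delta_apply, map_div]
  rfl

omit hp in
lemma map_restrict_delta (R : Set Nat.Primes) (f : IdeleGroup) :
    restrict R (delta IdeleGroup σ f) = delta IdeleGroup σ (restrict R f) :=
  map_delta (restrict R) (fun τ m => smul_restrict R τ m) σ f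

omit hp in
lemma map_restrict_normPow (R : Set Nat.Primes) (f : IdeleGroup) :
    restrict R (normPow IdeleGroup σ p f) = normPow IdeleGroup σ p (restrict R f) :=
  map_normPow (restrict R) (fun τ m => smul_restrict R τ m) σ p f

variable (h : Gen p k L σ)
include h

lemma stable_ideles : Stable (delta IdeleGroup σ) (normPow IdeleGroup σ p) (idelesOf L) :=
  h.stable le_rfl fun _ ha => h.smul_mem ha

lemma stable_partOn (T : Set Nat.Primes) :
    Stable (delta IdeleGroup σ) (normPow IdeleGroup σ p) (partOn T L) :=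
  h.stable inf_le_left fun _ ha => ⟨h.smul_mem ha.1, smul_mem_supported σ ha.2⟩

lemma stable_unitsPart (T : Set Nat.Primes) :
    Stable (delta IdeleGroup σ) (normPow IdeleGroup σ p) (unitsPart T L) :=
  h.stable inf_le_left fun _ ha => ⟨h.smul_mem ha.1, smul_mem_unitsAway σ ha.2⟩

lemma stable_tIdeles (T : Set Nat.Primes) :
    Stable (delta IdeleGroup σ) (normPow IdeleGroup σ p) (tIdeles T L) :=
  h.stable inf_le_left fun _ ha => ⟨h.smul_mem ha.1, smul_mem_unitsOutside σ ha.2⟩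

lemma stable_principalUnits (T : Set Nat.Primes) :
    Stable (delta IdeleGroup σ) (normPow IdeleGroup σ p) (principalUnits T L) :=
  h.stable (inf_le_right.trans inf_le_left) fun a ha => by
    obtain ⟨⟨x, rfl⟩, h1, h2⟩ := ha
    exact ⟨⟨σ • x, (smul_principal σ x).symm⟩, h.smul_mem h1, smul_mem_unitsOutside σ h2⟩

lemma stable_principalOf :
    Stable (delta IdeleGroup σ) (normPow IdeleGroup σ p) (principal.range ⊓ idelesOf L) :=
  h.stable inf_le_right fun a ha => by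
    obtain ⟨⟨x, rfl⟩, h1⟩ := ha
    exact ⟨⟨σ • x, (smul_principal σ x).symm⟩, h.smul_mem h1⟩

omit hp h in
lemma tIdeles_eq (T : Set Nat.Primes) (L : IntermediateField ℚ Qb) :
    tIdeles T L = partOn T L ⊔ unitsPart T L := by
  refine le_antisymm (fun f hf => ?_) ?_
  · refine Subgroup.mem_sup.2 ⟨restrict T f, ⟨restrict_mem_idelesOf hf.1, restrict_mem_supported T f⟩,
      restrict Tᶜ f, ⟨restrict_mem_idelesOf hf.1, fun ℓ hℓ ι =>
        restrict_apply_notMem (Set.notMem_compl_iff.2 hℓ) f ι, fun ℓ hℓ ι => ?_⟩, ?_⟩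
    · rw [restrict_apply_mem (Set.mem_compl hℓ)]; exact hf.2 ℓ hℓ ι
    · refine Subtype.ext (Raw.ext fun ℓ ι => ?_)
      rw [Subgroup.coe_mul, Raw.mul_apply]
      by_cases hℓ : ℓ ∈ T
      · rw [restrict_apply_mem hℓ, restrict_apply_notMem (Set.notMem_compl_iff.2 hℓ), mul_one]
      · rw [restrict_apply_notMem hℓ, restrict_apply_mem (Set.mem_compl hℓ), one_mul]
  · refine sup_le (fun f hf => ⟨hf.1, fun ℓ hℓ ι => ?_⟩) fun f hf => ⟨hf.1, hf.2.2⟩
    rw [hf.2 ℓ hℓ ι, Units.val_one, norm_one]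

omit hp h in
lemma partOn_inf_unitsPart (T : Set Nat.Primes) (L : IntermediateField ℚ Qb) :
    partOn T L ⊓ unitsPart T L = ⊥ := by
  refine le_bot_iff.1 fun f hf => Subgroup.mem_bot.2 (Subtype.ext (Raw.ext fun ℓ ι => ?_))
  by_cases hℓ : ℓ ∈ T
  · exact hf.2.2.1 ℓ hℓ ι
  · exact hf.1.2 ℓ hℓ ι

omit hp h in
lemma partOn_insert (ℓ : Nat.Primes) (T : Set Nat.Primes) (L : IntermediateField ℚ Qb) :
    partOn (insert ℓ T) L = partOn {ℓ} L ⊔ partOn T L := by
  refine le_antisymm (fun f hf => ?_) ?_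
  · refine Subgroup.mem_sup.2 ⟨restrict {ℓ} f,
      ⟨restrict_mem_idelesOf hf.1, restrict_mem_supported _ f⟩,
      restrict {ℓ}ᶜ f, ⟨restrict_mem_idelesOf hf.1, fun q hq ι => ?_⟩, ?_⟩
    · by_cases hql : q = ℓ
      · exact restrict_apply_notMem (Set.notMem_compl_iff.2 (Set.mem_singleton_iff.2 hql)) f ι
      · rw [restrict_apply_mem (Set.mem_compl_singleton_iff.2 hql)]
        exact hf.2 q (fun h => (Set.mem_insert_iff.1 h).elim hql hq) ι
    · refine Subtype.ext (Raw.ext fun q ι => ?_)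
      rw [Subgroup.coe_mul, Raw.mul_apply]
      by_cases hq : q ∈ ({ℓ} : Set Nat.Primes)
      · rw [restrict_apply_mem hq, restrict_apply_notMem (Set.notMem_compl_iff.2 hq), mul_one]
      · rw [restrict_apply_notMem hq, restrict_apply_mem (Set.mem_compl hq), one_mul]
  · refine sup_le (fun f hf => ⟨hf.1, fun q hq => hf.2 q fun h => hq ?_⟩)
      fun f hf => ⟨hf.1, fun q hq => hf.2 q fun h => hq (Set.mem_insert_of_mem _ h)⟩
    exact h ▸ Set.mem_insert _ _

omit hp h in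
lemma partOn_inf_partOn {ℓ : Nat.Primes} {T : Set Nat.Primes} (hℓ : ℓ ∉ T)
    (L : IntermediateField ℚ Qb) : partOn {ℓ} L ⊓ partOn T L = ⊥ := by
  refine le_bot_iff.1 fun f hf => Subgroup.mem_bot.2 (Subtype.ext (Raw.ext fun q ι => ?_))
  by_cases hq : q = ℓ
  · exact hf.2.2 q (hq ▸ hℓ) ι
  · exact hf.1.2 q (fun h => hq (Set.mem_singleton_iff.1 h)) ι

omit hp h in
lemma partOn_empty (L : IntermediateField ℚ Qb) : partOn ∅ L = ⊥ :=
  le_bot_iff.1 fun _ hf => Subgroup.mem_bot.2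
    (Subtype.ext (Raw.ext fun q ι => hf.2 q (Set.notMem_empty q) ι))

omit h in
/-- Solve componentwise and glue: units outside a set. -/
lemma exists_glue (R : Set Nat.Primes) (G : Nat.Primes → IdeleGroup) [FiniteDimensional ℚ L]
    (hG : ∀ ℓ ∉ R, G ℓ ∈ idelesOf L)
    (hu : ∀ ℓ ∉ R, ∀ ι : Emb ℓ, ‖((G ℓ : Raw) ℓ ι : PadicAlgCl (ℓ : ℕ))‖ = 1) :
    ∃ g ∈ unitsPart R L, ∀ ℓ ∉ R, ∀ ι : Emb ℓ, (g : Raw) ℓ ι = (G ℓ : Raw) ℓ ι := by
  classical
  let F : Raw := fun ℓ ι => if ℓ ∈ R then 1 else (G ℓ : Raw) ℓ ι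
  have hfix : ∀ τ ∈ L.fixingSubgroup, τ • F = F := fun τ hτ => Raw.ext fun ℓ ι => by
    show F ℓ (globalComp ι τ) = F ℓ ι
    simp only [F]
    split_ifs with h
    · rfl
    · exact congrArg (fun x : IdeleGroup => (x : Raw) ℓ ι) (hG ℓ h τ hτ)
  have hF : F ∈ ideles := ⟨fun ℓ τ ι => by
    simp only [F]
    split_ifs with h
    · simp
    · exact (G ℓ).2.1 ℓ τ ι, ⟨L, inferInstance, hfix⟩, ⟨∅, fun ℓ _ ι => by
    simp only [F]
    split_ifs with h
    · simp
    · exact hu ℓ h ι⟩⟩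
  exact ⟨⟨F, hF⟩, ⟨fun τ hτ => Subtype.ext (hfix τ hτ), fun ℓ hℓ ι => if_pos hℓ,
    fun ℓ hℓ ι => by
      rw [show ((⟨F, hF⟩ : IdeleGroup) : Raw) ℓ ι = _ from if_neg hℓ]; exact hu ℓ hℓ ι⟩,
    fun ℓ hℓ ι => if_neg hℓ⟩

end Fermat.Agent.ClassField.Idele.Herbrand
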